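import Fermat.Agent.CFT.Level.BridgeMap
import Fermat.Agent.CFT.Bridge.PlaceDict

/-!
# P3 / CFT, layer L1 (Level): the Prelude level systems are cofinally normal of finite index

`(sLevels S).IsCofinite` and `(pullLevels r).IsCofinite`: below every level there is a level
`Gal(ℚ̄/F)` (resp. its preimage) with `F/ℚ` finite Galois (and unramified outside `S`).
Uses helper41's `PlaceDict.isUnramifiedOutside_normalClosure`.
-/

set_option autoImplicit false

open CategoryTheory groupCohomology ExtCitation

noncomputable section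

namespace Fermat.Agent.CFT.Level

/-- For `F/ℚ` finite and normal, `Gal(ℚ̄/F)` is normal of finite index in `G_ℚ`. -/
lemma fixingSubgroup_normal_finiteIndex (F : IntermediateField ℚ (AlgebraicClosure ℚ))
    [FiniteDimensional ℚ F] [Normal ℚ F] :
    F.fixingSubgroup.Normal ∧ F.fixingSubgroup.FiniteIndex := by
  have hker : F.fixingSubgroup = (PlaceDict.res F).ker := by
    ext σ
    rw [MonoidHom.mem_ker, PlaceDict.res_eq_one_iff]
  rw [hker]
  exact ⟨MonoidHom.normal_ker _, Subgroup.finiteIndex_ker _⟩

/-- Below every finite `F` there is a finite Galois `F'` (its normal closure), unramified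
outside `S` if `F` is. -/
lemma exists_galois_level (F : IntermediateField ℚ (AlgebraicClosure ℚ))
    [FiniteDimensional ℚ F] :
    ∃ F' : IntermediateField ℚ (AlgebraicClosure ℚ), FiniteDimensional ℚ F' ∧ F ≤ F' ∧
      F'.fixingSubgroup ≤ F.fixingSubgroup ∧ F'.fixingSubgroup.Normal ∧
      F'.fixingSubgroup.FiniteIndex ∧
      ∀ S : Finset Nat.Primes, F.IsUnramifiedOutside S → F'.IsUnramifiedOutside S := by
  have hN : Normal ℚ (IntermediateField.normalClosure ℚ F (AlgebraicClosure ℚ)) :=
    PlaceDict.normal_normalClosure F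
  have hle : F ≤ IntermediateField.normalClosure ℚ F (AlgebraicClosure ℚ) :=
    IntermediateField.le_normalClosure F
  obtain ⟨h1, h2⟩ := fixingSubgroup_normal_finiteIndex
    (IntermediateField.normalClosure ℚ F (AlgebraicClosure ℚ))
  exact ⟨IntermediateField.normalClosure ℚ F (AlgebraicClosure ℚ), inferInstance, hle,
    IntermediateField.fixingSubgroup_antitone hle, h1, h2,
    fun S hF => PlaceDict.isUnramifiedOutside_normalClosure hF⟩

theorem isCofinite_sLevels (S : Finset Nat.Primes) : (sLevels S).IsCofinite := by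
  intro (F : IntermediateField ℚ (AlgebraicClosure ℚ)) (hF : F.IsUnramifiedOutside S)
  have := hF.1
  obtain ⟨F', _, _, h1, h2, h3, h4⟩ := exists_galois_level F
  exact ⟨F', h4 S hF, h1, h2, h3⟩

theorem isCofinite_pullLevels {G : Type} [Group G]
    (r : G →* (AlgebraicClosure ℚ ≃ₐ[ℚ] AlgebraicClosure ℚ)) : (pullLevels r).IsCofinite := by
  intro (F : IntermediateField ℚ (AlgebraicClosure ℚ)) (hF : FiniteDimensional ℚ F)
  obtain ⟨F', h0, _, h1, h2, h3, _⟩ := exists_galois_level F
  refine ⟨F', h0, Subgroup.comap_mono h1, h2.comap r, ?_⟩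
  have hk : (F'.fixingSubgroup.comap r) = ((QuotientGroup.mk' F'.fixingSubgroup).comp r).ker := by
    ext g
    rw [MonoidHom.mem_ker, MonoidHom.comp_apply, QuotientGroup.mk'_apply,
      QuotientGroup.eq_one_iff]
    rfl
  change (F'.fixingSubgroup.comap r).FiniteIndex
  rw [hk]
  exact Subgroup.finiteIndex_ker _

end Fermat.Agent.CFT.Level

end
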