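import Fermat.Agent.CFT.Level.Defs

/-!
# P3 / CFT, layer L1 (Level): the frozen contracts

Every statement is a `def … : Prop`. Providers prove `theorem x : Plan.X` in their own files;
consumers take the `Plan.X` they need as hypotheses.

Conventions (see `Level/Defs.lean`): `L : LevelSys G`; coefficient modules are `Rep.{0} k G`
with `k` ANY commutative ring in `Type`, and all maps between coefficient modules are additive
(`→+`), so that `ZMod p`- and `ℤ`-modules can be mixed; `Equivar f A A' α` means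
`α (f(g) • a) = g • α a`; the maps `H0add`, `H1add`, `H2add` are the induced maps
`H^n L A →+ H^n L' A'`.

* `CochainLevel`                       : a level-constant cochain of a smooth module is inflated
                                         from a normal finite-index level.
* `ExistsDelta₀`, `ExistsDelta₁`       : the connecting homomorphisms exist (`IsDelta₀/₁` specs).
* `ExactH0C` … `ExactH2A`              : the long exact sequence
  `H⁰(B) → H⁰(C) → H¹(A) → H¹(B) → H¹(C) → H²(A) → H²(B)`, for ANY `δ` satisfying the specs.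
* `NatDelta₀`, `NatDelta₁`             : naturality in the group, the levels and the sequence.
* `InflSurj₁/₂`, `InflInj₁/₂`          : level cohomology is the colimit over finite levels.
* `DiscreteH1`, `DiscreteH2`           : for the discrete level system, level cohomology is
                                         Mathlib's group cohomology.
* `SLevelsCofinite`, `PullLevelsCofinite` : the Prelude's level systems are cofinally normal of
                                         finite index.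
-/

set_option autoImplicit false

open CategoryTheory groupCohomology

noncomputable section

namespace Fermat.Agent.CFT.Level.Plan

/-! ## Levels of cochains -/

/-- **[CochainLevel]** For a cofinite level system and a smooth module, every level-constant
`1`-cochain is right-invariant under a NORMAL level of FINITE INDEX which fixes all its
values. -/
def CochainLevel : Prop :=
  ∀ (G : Type) [Group G] (L : LevelSys G), L.IsCofinite →
  ∀ (k : Type) [CommRing k] (A : Rep.{0} k G), IsSmooth L A →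
  ∀ b : G → A, IsLC₁ L b →
    ∃ i, L.P i ∧ (L.N i).Normal ∧ (L.N i).FiniteIndex ∧
      (∀ g s, s ∈ L.N i → b (g * s) = b g) ∧ ∀ g, ∀ s ∈ L.N i, A.ρ s (b g) = b g

/-! ## The connecting homomorphisms -/

/-- **[ExistsDelta₀]** `δ⁰ : H⁰(C) → H¹(L, A)` exists. -/
def ExistsDelta₀ : Prop :=
  ∀ (G : Type) [Group G] (L : LevelSys G)
    (k₁ k₂ k₃ : Type) [CommRing k₁] [CommRing k₂] [CommRing k₃]
    (A : Rep.{0} k₁ G) (B : Rep.{0} k₂ G) (C : Rep.{0} k₃ G) (φ : A →+ B) (ψ : B →+ C),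
    IsSES A B C φ ψ → IsSmooth L B →
    ∃ δ : C.ρ.invariants →+ H1 L A, IsDelta₀ L φ ψ δ

/-- **[ExistsDelta₁]** `δ¹ : H¹(L, C) → H²(L, A)` exists. -/
def ExistsDelta₁ : Prop :=
  ∀ (G : Type) [Group G] (L : LevelSys G), L.IsCofinite →
  ∀ (k₁ k₂ k₃ : Type) [CommRing k₁] [CommRing k₂] [CommRing k₃]
    (A : Rep.{0} k₁ G) (B : Rep.{0} k₂ G) (C : Rep.{0} k₃ G) (φ : A →+ B) (ψ : B →+ C),
    IsSES A B C φ ψ → IsSmooth L B →
    ∃ δ : H1 L C →+ H2 L A, IsDelta₁ L φ ψ δ

/-! ## Exactness -/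

/-- **[ExactH0C]** `H⁰(B) → H⁰(C) → H¹(A)` is exact. -/
def ExactH0C : Prop :=
  ∀ (G : Type) [Group G] (L : LevelSys G), L.IsCofinite →
  ∀ (k₁ k₂ k₃ : Type) [CommRing k₁] [CommRing k₂] [CommRing k₃]
    (A : Rep.{0} k₁ G) (B : Rep.{0} k₂ G) (C : Rep.{0} k₃ G) (φ : A →+ B) (ψ : B →+ C),
    IsSES A B C φ ψ → IsSmooth L B →
  ∀ δ : C.ρ.invariants →+ H1 L A, IsDelta₀ L φ ψ δ →
  ∀ c : C.ρ.invariants, δ c = 0 ↔ ∃ b : B.ρ.invariants, ψ b = c

/-- **[ExactH1A]** `H⁰(C) → H¹(A) → H¹(B)` is exact. -/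
def ExactH1A : Prop :=
  ∀ (G : Type) [Group G] (L : LevelSys G), L.IsCofinite →
  ∀ (k₁ k₂ k₃ : Type) [CommRing k₁] [CommRing k₂] [CommRing k₃]
    (A : Rep.{0} k₁ G) (B : Rep.{0} k₂ G) (C : Rep.{0} k₃ G) (φ : A →+ B) (ψ : B →+ C)
    (h : IsSES A B C φ ψ), IsSmooth L B →
  ∀ δ : C.ρ.invariants →+ H1 L A, IsDelta₀ L φ ψ δ →
  ∀ x : H1 L A,
    H1add (MonoidHom.id G) φ h.equivar_φ (LevelSys.Compat.id L) x = 0 ↔ ∃ c, δ c = x

/-- **[ExactH1B]** `H¹(A) → H¹(B) → H¹(C)` is exact. -/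
def ExactH1B : Prop :=
  ∀ (G : Type) [Group G] (L : LevelSys G), L.IsCofinite →
  ∀ (k₁ k₂ k₃ : Type) [CommRing k₁] [CommRing k₂] [CommRing k₃]
    (A : Rep.{0} k₁ G) (B : Rep.{0} k₂ G) (C : Rep.{0} k₃ G) (φ : A →+ B) (ψ : B →+ C)
    (h : IsSES A B C φ ψ), IsSmooth L B →
  ∀ y : H1 L B,
    H1add (MonoidHom.id G) ψ h.equivar_ψ (LevelSys.Compat.id L) y = 0 ↔
      ∃ x : H1 L A, H1add (MonoidHom.id G) φ h.equivar_φ (LevelSys.Compat.id L) x = y

/-- **[ExactH1C]** `H¹(B) → H¹(C) → H²(A)` is exact. -/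
def ExactH1C : Prop :=
  ∀ (G : Type) [Group G] (L : LevelSys G), L.IsCofinite →
  ∀ (k₁ k₂ k₃ : Type) [CommRing k₁] [CommRing k₂] [CommRing k₃]
    (A : Rep.{0} k₁ G) (B : Rep.{0} k₂ G) (C : Rep.{0} k₃ G) (φ : A →+ B) (ψ : B →+ C)
    (h : IsSES A B C φ ψ), IsSmooth L B →
  ∀ δ : H1 L C →+ H2 L A, IsDelta₁ L φ ψ δ →
  ∀ z : H1 L C,
    δ z = 0 ↔ ∃ y : H1 L B, H1add (MonoidHom.id G) ψ h.equivar_ψ (LevelSys.Compat.id L) y = z

/-- **[ExactH2A]** `H¹(C) → H²(A) → H²(B)` is exact. -/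
def ExactH2A : Prop :=
  ∀ (G : Type) [Group G] (L : LevelSys G), L.IsCofinite →
  ∀ (k₁ k₂ k₃ : Type) [CommRing k₁] [CommRing k₂] [CommRing k₃]
    (A : Rep.{0} k₁ G) (B : Rep.{0} k₂ G) (C : Rep.{0} k₃ G) (φ : A →+ B) (ψ : B →+ C)
    (h : IsSES A B C φ ψ), IsSmooth L B →
  ∀ δ : H1 L C →+ H2 L A, IsDelta₁ L φ ψ δ →
  ∀ x : H2 L A,
    H2add (MonoidHom.id G) φ h.equivar_φ (LevelSys.Compat.id L) x = 0 ↔ ∃ z, δ z = x

/-! ## Naturality -/

/-- **[NatDelta₀]** `δ⁰` is natural for a morphism of short exact sequences over a group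
homomorphism `f : G' →* G`. -/
def NatDelta₀ : Prop :=
  ∀ (G G' : Type) [Group G] [Group G'] (L : LevelSys G) (L' : LevelSys G') (f : G' →* G)
    (hf : L'.Compat L f)
    (k₁ k₂ k₃ k₁' k₂' k₃' : Type) [CommRing k₁] [CommRing k₂] [CommRing k₃]
    [CommRing k₁'] [CommRing k₂'] [CommRing k₃']
    (A : Rep.{0} k₁ G) (B : Rep.{0} k₂ G) (C : Rep.{0} k₃ G) (φ : A →+ B) (ψ : B →+ C)
    (A' : Rep.{0} k₁' G') (B' : Rep.{0} k₂' G') (C' : Rep.{0} k₃' G')
    (φ' : A' →+ B') (ψ' : B' →+ C'),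
    IsSES A B C φ ψ → IsSES A' B' C' φ' ψ' →
  ∀ (α : A →+ A') (β : B →+ B') (γ : C →+ C') (hα : Equivar f A A' α)
    (_ : Equivar f B B' β) (hγ : Equivar f C C' γ),
    (∀ a, β (φ a) = φ' (α a)) → (∀ b, γ (ψ b) = ψ' (β b)) →
  ∀ (δ : C.ρ.invariants →+ H1 L A) (δ' : C'.ρ.invariants →+ H1 L' A'),
    IsDelta₀ L φ ψ δ → IsDelta₀ L' φ' ψ' δ' →
  ∀ c : C.ρ.invariants, δ' (H0add f γ hγ c) = H1add f α hα hf (δ c)

/-- **[NatDelta₁]** `δ¹` is natural for a morphism of short exact sequences over a group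
homomorphism `f : G' →* G` (in particular: restriction to the local groups). -/
def NatDelta₁ : Prop :=
  ∀ (G G' : Type) [Group G] [Group G'] (L : LevelSys G) (L' : LevelSys G') (f : G' →* G)
    (hf : L'.Compat L f), L.IsCofinite →
  ∀ (k₁ k₂ k₃ k₁' k₂' k₃' : Type) [CommRing k₁] [CommRing k₂] [CommRing k₃]
    [CommRing k₁'] [CommRing k₂'] [CommRing k₃']
    (A : Rep.{0} k₁ G) (B : Rep.{0} k₂ G) (C : Rep.{0} k₃ G) (φ : A →+ B) (ψ : B →+ C)
    (A' : Rep.{0} k₁' G') (B' : Rep.{0} k₂' G') (C' : Rep.{0} k₃' G')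
    (φ' : A' →+ B') (ψ' : B' →+ C'),
    IsSES A B C φ ψ → IsSmooth L B → IsSES A' B' C' φ' ψ' →
  ∀ (α : A →+ A') (β : B →+ B') (γ : C →+ C') (hα : Equivar f A A' α)
    (_ : Equivar f B B' β) (hγ : Equivar f C C' γ),
    (∀ a, β (φ a) = φ' (α a)) → (∀ b, γ (ψ b) = ψ' (β b)) →
  ∀ (δ : H1 L C →+ H2 L A) (δ' : H1 L' C' →+ H2 L' A'),
    IsDelta₁ L φ ψ δ → IsDelta₁ L' φ' ψ' δ' →
  ∀ z : H1 L C, δ' (H1add f γ hγ hf z) = H2add f α hα hf (δ z)

/-! ## Finite levels -/

/-- **[InflSurj₁]** Every class of `H¹(L, A)` is inflated from every sufficiently deep normal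
level. -/
def InflSurj₁ : Prop :=
  ∀ (G : Type) [Group G] (L : LevelSys G), L.IsCofinite →
  ∀ (k : Type) [CommRing k] (A : Rep.{0} k G), IsSmooth L A →
  ∀ x : H1 L A, ∃ i, L.P i ∧ ∀ j, L.P j → (L.N j).Normal → L.N j ≤ L.N i →
    ∀ (Q : Type) [Group Q] (π : G →* Q) (k' : Type) [CommRing k'] (B : Rep.{0} k' Q)
      (ι : B →+ A) (h : IsFiniteLevel L A j π B ι),
      ∃ y : H1 (discrete Q) B, H1add π ι h.equivar h.compat y = x

/-- **[InflSurj₂]** Every class of `H²(L, A)` is inflated from every sufficiently deep normal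
level. -/
def InflSurj₂ : Prop :=
  ∀ (G : Type) [Group G] (L : LevelSys G), L.IsCofinite →
  ∀ (k : Type) [CommRing k] (A : Rep.{0} k G), IsSmooth L A →
  ∀ x : H2 L A, ∃ i, L.P i ∧ ∀ j, L.P j → (L.N j).Normal → L.N j ≤ L.N i →
    ∀ (Q : Type) [Group Q] (π : G →* Q) (k' : Type) [CommRing k'] (B : Rep.{0} k' Q)
      (ι : B →+ A) (h : IsFiniteLevel L A j π B ι),
      ∃ y : H2 (discrete Q) B, H2add π ι h.equivar h.compat y = x

/-- **[InflInj₁]** Inflation from a finite level is injective on `H¹`. -/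
def InflInj₁ : Prop :=
  ∀ (G : Type) [Group G] (L : LevelSys G) (k : Type) [CommRing k] (A : Rep.{0} k G)
    (i : L.ι) (Q : Type) [Group Q] (π : G →* Q) (k' : Type) [CommRing k'] (B : Rep.{0} k' Q)
    (ι : B →+ A) (h : IsFiniteLevel L A i π B ι),
    Function.Injective (H1add (L := discrete Q) (L' := L) π ι h.equivar h.compat)

/-- **[InflInj₂]** A class of a finite level which dies in `H²(L, A)` dies at every
sufficiently deep normal level. -/
def InflInj₂ : Prop :=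
  ∀ (G : Type) [Group G] (L : LevelSys G), L.IsCofinite →
  ∀ (k : Type) [CommRing k] (A : Rep.{0} k G), IsSmooth L A →
  ∀ (i : L.ι) (Q : Type) [Group Q] (π : G →* Q) (k' : Type) [CommRing k'] (B : Rep.{0} k' Q)
    (ι : B →+ A) (h : IsFiniteLevel L A i π B ι) (y : H2 (discrete Q) B),
    H2add π ι h.equivar h.compat y = 0 →
  ∃ i', L.P i' ∧ L.N i' ≤ L.N i ∧ ∀ j, L.P j → (L.N j).Normal → L.N j ≤ L.N i' →
    ∀ (Q' : Type) [Group Q'] (π' : G →* Q') (k'' : Type) [CommRing k''] (B' : Rep.{0} k'' Q')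
      (ι' : B' →+ A), IsFiniteLevel L A j π' B' ι' →
    ∀ (q : Q' →* Q) (β : B →+ B') (hβ : Equivar q B B' β),
      (∀ g, q (π' g) = π g) → (∀ b, ι' (β b) = ι b) →
      H2add (L := discrete Q) (L' := discrete Q') q β hβ (compat_discrete_discrete q) y = 0

/-! ## The discrete level system -/

/-- **[DiscreteH1]** For the discrete level system every class is a level class. -/
def DiscreteH1 : Prop :=
  ∀ (Q : Type) [Group Q] (k : Type) [CommRing k] (B : Rep.{0} k Q), H1 (discrete Q) B = ⊤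

/-- **[DiscreteH2]** For the discrete level system, level `H²` is Mathlib's `H2`. -/
def DiscreteH2 : Prop :=
  ∀ (Q : Type) [Group Q] (k : Type) [CommRing k] (B : Rep.{0} k Q),
    ∃ e : H2 (discrete Q) B ≃ₗ[k] groupCohomology.H2 B,
      ∀ (a : cocycles₂ B) (ha : (a : Q × Q → B) ∈ Z2 (discrete Q) B),
        e (H2π (discrete Q) B ⟨a, ha⟩) = (groupCohomology.H2π B).hom a

/-! ## The Prelude's level systems -/

/-- **[SLevelsCofinite]** The `S`-levels of `G_ℚ` are cofinally normal of finite index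
(Galois closures of `S`-unramified fields are `S`-unramified). -/
def SLevelsCofinite : Prop :=
  ∀ S : Finset Nat.Primes, (sLevels S).IsCofinite

/-- **[PullLevelsCofinite]** The full levels pulled back along `r` are cofinally normal of
finite index. -/
def PullLevelsCofinite : Prop :=
  ∀ (G : Type) [Group G] (r : G →* (AlgebraicClosure ℚ ≃ₐ[ℚ] AlgebraicClosure ℚ)),
    (pullLevels r).IsCofinite

end Fermat.Agent.CFT.Level.Plan

end
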