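import Fermat.Agent.CFT.Level.Basic
import Fermat.Prelude.Def_GroupCohomology_ContinuousUnramified

/-!
# P3 / CFT, layer L1 (Level): the Prelude dictionary

The frozen Prelude objects `IsLevelConstantS₁/₂`, `continuousH1S`, `continuousH2S`
(`S`-levels on `G_ℚ`) and `IsLevelConstant₁/₂ r`, `continuousH1 r`, `continuousH2 r`
(full levels of `G_ℚ` pulled back along `r : G →* G_ℚ`) are instances of the abstract level
cohomology of `Level/Basic.lean` for the level systems `sLevels S` and `pullLevels r`,
*definitionally* (every bridge below is `rfl`).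
-/

set_option autoImplicit false

open CategoryTheory groupCohomology ExtCitation

noncomputable section

namespace Fermat.Agent.CFT.Level

/-- `S`-levels on `G_ℚ`: the subgroups `Gal(ℚ̄/F)`, `F` finite over `ℚ` and unramified outside
`S` (in the Prelude's sense). -/
def sLevels (S : Finset Nat.Primes) :
    LevelSys (AlgebraicClosure ℚ ≃ₐ[ℚ] AlgebraicClosure ℚ) where
  ι := IntermediateField ℚ (AlgebraicClosure ℚ)
  P := fun F => F.IsUnramifiedOutside S
  N := fun F => F.fixingSubgroup
  nonempty := ⟨⊥, IntermediateField.isUnramifiedOutside_bot S⟩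
  directed := fun F F' hF hF' => ⟨F ⊔ F', hF.sup hF', by
    rw [IntermediateField.fixingSubgroup_sup]⟩

/-- The full levels of `G_ℚ` (all `Gal(ℚ̄/F)`, `F` finite over `ℚ`) pulled back along
`r : G →* G_ℚ`. -/
def pullLevels {G : Type} [Group G] (r : G →* (AlgebraicClosure ℚ ≃ₐ[ℚ] AlgebraicClosure ℚ)) :
    LevelSys G where
  ι := IntermediateField ℚ (AlgebraicClosure ℚ)
  P := fun F => FiniteDimensional ℚ F
  N := fun F => F.fixingSubgroup.comap r
  nonempty := ⟨⊥, inferInstance⟩
  directed := fun F F' hF hF' => by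
    have := hF; have := hF'
    refine ⟨F ⊔ F', inferInstance, ?_⟩
    rw [IntermediateField.fixingSubgroup_sup]
    exact fun x hx => ⟨hx.1, hx.2⟩

section S

variable {k : Type} [CommRing k] (S : Finset Nat.Primes)
  (M : Rep k (AlgebraicClosure ℚ ≃ₐ[ℚ] AlgebraicClosure ℚ))

theorem isLevelConstantS₁_iff {X : Type*}
    (f : (AlgebraicClosure ℚ ≃ₐ[ℚ] AlgebraicClosure ℚ) → X) :
    IsLevelConstantS₁ S f ↔ IsLC₁ (sLevels S) f := Iff.rfl

theorem isLevelConstantS₂_iff {X : Type*}
    (f : (AlgebraicClosure ℚ ≃ₐ[ℚ] AlgebraicClosure ℚ) ×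
      (AlgebraicClosure ℚ ≃ₐ[ℚ] AlgebraicClosure ℚ) → X) :
    IsLevelConstantS₂ S f ↔ IsLC₂ (sLevels S) f := Iff.rfl

theorem levelCochainsS₁_eq : levelCochainsS₁ S M = cochains₁ (sLevels S) M := rfl

theorem levelCochainsS₂_eq : levelCochainsS₂ S M = cochains₂ (sLevels S) M := rfl

theorem levelCocyclesS₁_eq : levelCocyclesS₁ S M = Z1 (sLevels S) M := rfl

theorem continuousH1S_eq : continuousH1S S M = H1 (sLevels S) M := rfl

theorem levelCocyclesS₂_eq : levelCocyclesS₂ S M = Z2 (sLevels S) M := rfl

theorem levelCoboundariesS₂_eq : levelCoboundariesS₂ S M = B2 (sLevels S) M := rfl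

/-- The Prelude's `continuousH2S S M` IS `H2 (sLevels S) M` (same type). -/
theorem continuousH2S_eq : continuousH2S S M = H2 (sLevels S) M := rfl

theorem continuousH2Sπ_eq : continuousH2Sπ S M = H2π (sLevels S) M := rfl

end S

section pull

variable {k : Type} [CommRing k] {G : Type} [Group G]
  (r : G →* (AlgebraicClosure ℚ ≃ₐ[ℚ] AlgebraicClosure ℚ)) (A : Rep k G)

theorem isLevelConstant₁_iff {X : Type*} (f : G → X) :
    IsLevelConstant₁ r f ↔ IsLC₁ (pullLevels r) f := Iff.rfl

theorem isLevelConstant₂_iff {X : Type*} (f : G × G → X) :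
    IsLevelConstant₂ r f ↔ IsLC₂ (pullLevels r) f := Iff.rfl

theorem levelCochains₁_eq : levelCochains₁ r A = cochains₁ (pullLevels r) A := rfl

theorem levelCochains₂_eq : levelCochains₂ r A = cochains₂ (pullLevels r) A := rfl

theorem levelCocycles₁_eq : levelCocycles₁ r A = Z1 (pullLevels r) A := rfl

theorem continuousH1_eq : continuousH1 r A = H1 (pullLevels r) A := rfl

theorem levelCocycles₂_eq : levelCocycles₂ r A = Z2 (pullLevels r) A := rfl

theorem levelCoboundaries₂_eq : levelCoboundaries₂ r A = B2 (pullLevels r) A := rfl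

/-- The Prelude's `continuousH2 r A` IS `H2 (pullLevels r) A` (same type). -/
theorem continuousH2_eq : continuousH2 r A = H2 (pullLevels r) A := rfl

theorem continuousH2π_eq : continuousH2π r A = H2π (pullLevels r) A := rfl

end pull

end Fermat.Agent.CFT.Level

end
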