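import Fermat.Agent.CFT.Level.BridgeMap

/-!
# P3 / CFT, layer L1 (Level): the vocabulary of `Level/Plan.lean`

On top of `Level/Basic.lean` (`LevelSys`, `IsLC₁/₂`, `Z1`, `H1`, `Z2`, `B2`, `H2`),
`Level/Map.lean` (`IsSmooth`, `LevelSys.Compat`, the `k`-linear `H1map`, `H2map`) and
`Level/Bridge.lean`, `Level/BridgeMap.lean` (`sLevels`, `pullLevels`, `locH1`, `locH2`) this
file fixes

* change of group and coefficients with MIXED coefficient rings and ADDITIVE maps:
  for `f : G' →* G`, `A : Rep k G`, `A' : Rep k' G'` and `α : A →+ A'` with `Equivar f A A' α`,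
  the maps `H0add`, `Z1add`, `H1addFull`, `H1add`, `Z2add`, `H2add`
  (for `k = k'` and `α` linear they agree with `H1map`, `H2map`: `H1map_eq_H1add`,
  `H2map_eq_H2add`);
* `H1mk L A c hc : H1 L A`, the class of a level-constant cocycle;
* `IsSES A B C φ ψ` and the SPECIFICATIONS `IsDelta₀`, `IsDelta₁` of the connecting
  homomorphisms `H⁰(C) → H¹(A)` and `H¹(C) → H²(A)`;
* `IsFiniteLevel L A i π B ι`: a model `(Q, B)` of `(G ⧸ N_i, A^{N_i})`;
* dictionary lemmas `locRes₂S_eq_H2add`, `map_eq_H1addFull`.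
-/

set_option autoImplicit false

open CategoryTheory groupCohomology

noncomputable section

namespace Fermat.Agent.CFT.Level

/-! ## Compatibility with discrete level systems -/

section Compat

variable {G G' G'' : Type} [Group G] [Group G'] [Group G'']

/-- A homomorphism to a group with the discrete level system is compatible iff its kernel
contains a level. -/
lemma compat_discrete_iff (L : LevelSys G) {Q : Type} [Group Q] (π : G →* Q) :
    L.Compat (discrete Q) π ↔ ∃ j, L.P j ∧ L.N j ≤ π.ker := by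
  constructor
  · intro h
    obtain ⟨j, hj, hle⟩ := h () trivial
    exact ⟨j, hj, fun x hx => by simpa [discrete, MonoidHom.mem_ker] using hle hx⟩
  · rintro ⟨j, hj, hle⟩ i _
    exact ⟨j, hj, fun x hx => by simpa [discrete, MonoidHom.mem_ker] using hle hx⟩

end Compat

/-! ## Change of group and coefficients (mixed coefficient rings, additive maps) -/

section Maps

variable {G G' : Type} [Group G] [Group G'] {k k' : Type} [CommRing k] [CommRing k']

/-- `α : A →+ A'` is equivariant along `f : G' →* G`: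
`α (f(g) • a) = g • α a`. (For `G' = G`, `f = id` this is plain equivariance.) -/
abbrev Equivar (f : G' →* G) (A : Rep.{0} k G) (A' : Rep.{0} k' G') (α : A →+ A') : Prop :=
  ∀ (g : G') (a : A), α (A.ρ (f g) a) = A'.ρ g (α a)

variable {A : Rep.{0} k G} {A' : Rep.{0} k' G'} (f : G' →* G) (α : A →+ A') (hα : Equivar f A A' α)

include hα in
lemma addMap_mem_invariants {a : A} (ha : a ∈ A.ρ.invariants) : α a ∈ A'.ρ.invariants := by
  intro g
  rw [← hα, ha (f g)]

/-- The map on invariants (`H⁰`) induced by `(f, α)`. -/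
def H0add : A.ρ.invariants →+ A'.ρ.invariants where
  toFun a := ⟨α a, addMap_mem_invariants f α hα a.2⟩
  map_zero' := by ext; simp
  map_add' a b := by ext; simp

@[simp] lemma coe_H0add (a : A.ρ.invariants) : (H0add f α hα a : A') = α a := rfl

include hα in
lemma addPP_mem_cocycles₁ {x : G → A} (hx : x ∈ cocycles₁ A) :
    (fun g => α (x (f g))) ∈ cocycles₁ A' := by
  rw [mem_cocycles₁_iff] at hx ⊢
  intro g h
  simp only [map_mul, hx, map_add, hα]

include hα in
lemma addPP_mem_cocycles₂ {x : G × G → A} (hx : x ∈ cocycles₂ A) :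
    (fun g : G' × G' => α (x (f g.1, f g.2))) ∈ cocycles₂ A' := by
  rw [mem_cocycles₂_iff] at hx ⊢
  intro g h j
  simp only [map_mul, ← map_add, hx, ← hα]

include hα in
lemma addPP_d₀₁ (a : A) :
    (fun g => α ((d₀₁ A).hom a (f g))) = (d₀₁ A').hom (α a) := by
  ext g
  simp [d₀₁_hom_apply, hα]

include hα in
lemma addPP_d₁₂ (x : G → A) :
    (fun g : G' × G' => α ((d₁₂ A).hom x (f g.1, f g.2))) =
      (d₁₂ A').hom (fun g => α (x (f g))) := by
  ext ⟨g, g'⟩
  simp [d₁₂_hom_apply, map_add, map_sub, hα, map_mul]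

include hα in
lemma addPP_mem_coboundaries₁ {x : G → A} (hx : x ∈ coboundaries₁ A) :
    (fun g => α (x (f g))) ∈ coboundaries₁ A' := by
  obtain ⟨a, rfl⟩ := hx
  exact ⟨α a, (addPP_d₀₁ f α hα a).symm⟩

/-- The map on (all) `1`-cocycles induced by `(f, α)`: `c ↦ α ∘ c ∘ f`. -/
def Z1add : cocycles₁ A →+ cocycles₁ A' where
  toFun c := ⟨fun g => α (c (f g)), addPP_mem_cocycles₁ f α hα c.2⟩
  map_zero' := Subtype.ext (funext fun _ => map_zero α)
  map_add' a b := Subtype.ext (funext fun g => map_add α (a (f g)) (b (f g)))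

@[simp] lemma Z1add_apply (c : cocycles₁ A) (g : G') : Z1add f α hα c g = α (c (f g)) := rfl

lemma H1π_surjective (A : Rep.{0} k G) : Function.Surjective (H1π A).hom := fun x =>
  H1_induction_on (C := fun x => ∃ c, (H1π A).hom c = x) x fun c => ⟨c, rfl⟩

/-- The map on Mathlib's `H1` induced by `(f, α)` (mixed coefficient rings, additive). -/
def H1addFull : groupCohomology.H1 A →+ groupCohomology.H1 A' :=
  AddMonoidHom.liftOfRightInverse ((H1π A).hom.toAddMonoidHom)
    (Function.surjInv (H1π_surjective A)) (Function.rightInverse_surjInv (H1π_surjective A))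
    ⟨(H1π A').hom.toAddMonoidHom.comp (Z1add f α hα), by
      intro c hc
      rw [AddMonoidHom.mem_ker] at hc ⊢
      have hc' : (c : G → A) ∈ coboundaries₁ A := (H1π_eq_zero_iff c).1 hc
      exact (H1π_eq_zero_iff _).2 (addPP_mem_coboundaries₁ f α hα hc')⟩

@[simp] lemma H1addFull_π (c : cocycles₁ A) :
    H1addFull f α hα ((H1π A).hom c) = (H1π A').hom (Z1add f α hα c) :=
  AddMonoidHom.liftOfRightInverse_comp_apply _ _ _ _ c

variable {L : LevelSys G} {L' : LevelSys G'} (hf : L'.Compat L f)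

include hf in
lemma H1addFull_mem {x : groupCohomology.H1 A} (hx : x ∈ H1 L A) :
    H1addFull f α hα x ∈ H1 L' A' := by
  obtain ⟨c, hc, rfl⟩ := (mem_H1_iff L A x).1 hx
  rw [H1addFull_π]
  exact (mem_H1_iff L' A' _).2 ⟨_, ((IsLC₁.precomp hf hc).comp α :), rfl⟩

/-- The map on level `H¹` induced by `(f, α)`. -/
def H1add : H1 L A →+ H1 L' A' :=
  ((H1addFull f α hα).comp (H1 L A).toAddSubgroup.subtype).codRestrict (H1 L' A')
    fun x => H1addFull_mem f α hα hf x.2

@[simp] lemma coe_H1add (x : H1 L A) :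
    (H1add f α hα hf x : groupCohomology.H1 A') = H1addFull f α hα (x : groupCohomology.H1 A) :=
  rfl

include hα hf in
lemma addPP_mem_Z2 {x : G × G → A} (hx : x ∈ Z2 L A) :
    (fun g : G' × G' => α (x (f g.1, f g.2))) ∈ Z2 L' A' :=
  ⟨addPP_mem_cocycles₂ f α hα hx.1, ((IsLC₂.precomp hf hx.2).comp α :)⟩

include hα hf in
lemma addPP_mem_B2 {x : G × G → A} (hx : x ∈ B2 L A) :
    (fun g : G' × G' => α (x (f g.1, f g.2))) ∈ B2 L' A' := by
  obtain ⟨y, hy, rfl⟩ := (mem_B2_iff L A x).1 hx
  exact (mem_B2_iff L' A' _).2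
    ⟨fun g => α (y (f g)), ((IsLC₁.precomp hf hy).comp α :), (addPP_d₁₂ f α hα y).symm⟩

/-- The map on level-constant `2`-cocycles induced by `(f, α)`. -/
def Z2add : ↥(Z2 L A) →+ ↥(Z2 L' A') where
  toFun x := ⟨fun g : G' × G' => α ((x : G × G → A) (f g.1, f g.2)),
    addPP_mem_Z2 f α hα hf x.2⟩
  map_zero' := Subtype.ext (funext fun _ => map_zero α)
  map_add' a b := Subtype.ext (funext fun g =>
    map_add α ((a : G × G → A) (f g.1, f g.2)) ((b : G × G → A) (f g.1, f g.2)))

@[simp] lemma coe_Z2add (x : ↥(Z2 L A)) (g : G' × G') :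
    (Z2add f α hα hf x : G' × G' → A') g = α ((x : G × G → A) (f g.1, f g.2)) := rfl

/-- The map on level `H²` induced by `(f, α)`. -/
def H2add : H2 L A →+ H2 L' A' :=
  QuotientAddGroup.lift ((B2 L A).comap (Z2 L A).subtype).toAddSubgroup
    ((H2π L' A').toAddMonoidHom.comp (Z2add f α hα hf)) (by
      intro x hx
      rw [AddMonoidHom.mem_ker]
      exact (H2π_eq_zero_iff L' A' _).2 (addPP_mem_B2 f α hα hf hx))

@[simp] lemma H2add_π (x : ↥(Z2 L A)) :
    H2add f α hα hf (H2π L A x) = H2π L' A' (Z2add f α hα hf x) := rfl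

end Maps

/-! ## Classes of level-constant cocycles -/

section Classes

variable {G : Type} [Group G] {k : Type} [CommRing k] (L : LevelSys G) (A : Rep.{0} k G)

/-- The class in `H1 L A` of a level-constant `1`-cocycle. -/
def H1mk (c : cocycles₁ A) (hc : IsLC₁ L c) : H1 L A :=
  ⟨(H1π A).hom c, (mem_H1_iff L A _).2 ⟨c, hc, rfl⟩⟩

@[simp] lemma coe_H1mk (c : cocycles₁ A) (hc : IsLC₁ L c) :
    (H1mk L A c hc : groupCohomology.H1 A) = (H1π A).hom c := rfl

lemma exists_H1mk_eq (x : H1 L A) : ∃ c hc, H1mk L A c hc = x := by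
  obtain ⟨c, hc, h⟩ := (mem_H1_iff L A _).1 x.2
  exact ⟨c, hc, Subtype.ext h⟩

lemma H1mk_eq_zero_iff (c : cocycles₁ A) (hc : IsLC₁ L c) :
    H1mk L A c hc = 0 ↔ (c : G → A) ∈ coboundaries₁ A := by
  rw [← H1π_eq_zero_iff, Subtype.ext_iff]
  rfl

lemma H2π_surjective : Function.Surjective (H2π L A) := Submodule.mkQ_surjective _

end Classes

/-! ## Short exact sequences and the specification of the connecting homomorphisms -/

section Delta

variable {G : Type} [Group G] {k₁ k₂ k₃ : Type} [CommRing k₁] [CommRing k₂] [CommRing k₃]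

/-- `0 → A → B → C → 0` is an exact sequence of `G`-modules (additive, equivariant maps; the
coefficient rings may differ). -/
structure IsSES (A : Rep.{0} k₁ G) (B : Rep.{0} k₂ G) (C : Rep.{0} k₃ G) (φ : A →+ B)
    (ψ : B →+ C) :
    Prop where
  equivar_φ : Equivar (MonoidHom.id G) A B φ
  equivar_ψ : Equivar (MonoidHom.id G) B C ψ
  injective : Function.Injective φ
  surjective : Function.Surjective ψ
  exact : ∀ b : B, ψ b = 0 ↔ ∃ a : A, φ a = b

variable (L : LevelSys G) {A : Rep.{0} k₁ G} {B : Rep.{0} k₂ G} {C : Rep.{0} k₃ G}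
  (φ : A →+ B) (ψ : B →+ C)

/-- `δ` is the connecting homomorphism `H⁰(C) → H¹(A)`: whenever `c = ψ b` and the cocycle `a`
satisfies `φ ∘ a = d⁰ b`, then `δ c` is the class of `a`. -/
def IsDelta₀ (δ : C.ρ.invariants →+ H1 L A) : Prop :=
  ∀ (c : C.ρ.invariants) (b : B) (a : cocycles₁ A), ψ b = c →
    (∀ g, φ (a g) = B.ρ g b - b) → (δ c : groupCohomology.H1 A) = (H1π A).hom a

/-- `δ` is the connecting homomorphism `H¹(C) → H²(A)`: whenever the cocycle `c` represents `x`,
`b` is a level-constant `1`-cochain of `B` with `ψ ∘ b = c`, and the level-constant `2`-cocycle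
`a` satisfies `φ ∘ a = d¹ b`, then `δ x` is the class of `a`. -/
def IsDelta₁ (δ : H1 L C →+ H2 L A) : Prop :=
  ∀ (x : H1 L C) (c : cocycles₁ C) (b : G → B) (a : ↥(Z2 L A)),
    (H1π C).hom c = (x : groupCohomology.H1 C) → IsLC₁ L b → (∀ g, ψ (b g) = c g) →
    (∀ g h, φ ((a : G × G → A) (g, h)) = B.ρ g (b h) - b (g * h) + b g) → δ x = H2π L A a

end Delta

/-! ## Finite-level models -/

section FiniteLevel

variable {G : Type} [Group G] {k k' : Type} [CommRing k] [CommRing k']

/-- `(Q, π, B, ι)` is a model of the finite level `i` of the smooth module `A`: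
`π : G →* Q` is onto with kernel `L.N i` and `ι` identifies the `Q`-module `B` with the
`L.N i`-invariants of `A`. (Example: `Q = G ⧸ N`, `B = A^N`.) -/
structure IsFiniteLevel (L : LevelSys G) (A : Rep.{0} k G) (i : L.ι) {Q : Type} [Group Q]
    (π : G →* Q) (B : Rep.{0} k' Q) (ι : B →+ A) : Prop where
  isLevel : L.P i
  surjective : Function.Surjective π
  ker_eq : π.ker = L.N i
  equivar : Equivar π B A ι
  injective : Function.Injective ι
  exists_of_fixed : ∀ a : A, (∀ s ∈ L.N i, A.ρ s a = a) → ∃ b : B, ι b = a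

lemma IsFiniteLevel.compat {L : LevelSys G} {A : Rep.{0} k G} {i : L.ι} {Q : Type} [Group Q]
    {π : G →* Q} {B : Rep.{0} k' Q} {ι : B →+ A} (h : IsFiniteLevel L A i π B ι) :
    L.Compat (discrete Q) π :=
  (compat_discrete_iff L π).2 ⟨i, h.isLevel, h.ker_eq.ge⟩

lemma compat_discrete_discrete {Q Q' : Type} [Group Q] [Group Q'] (q : Q' →* Q) :
    (discrete Q').Compat (discrete Q) q :=
  fun _ _ => ⟨(), trivial, fun x hx => by
    have hx' : x = 1 := by simpa [discrete] using hx
    subst hx'
    exact one_mem _⟩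

end FiniteLevel

/-! ## Dictionary: the Prelude's and Mathlib's maps are the level maps -/

section Dictionary

open ExtCitation

/-- The Prelude's localisation map on `H²` is the level map `H2add` (identity on coefficients). -/
theorem locRes₂S_eq_H2add {k : Type} [CommRing k] (S : Finset Nat.Primes)
    (M : Rep.{0} k (AlgebraicClosure ℚ ≃ₐ[ℚ] AlgebraicClosure ℚ)) {H : Type} [Group H]
    (r : H →* (AlgebraicClosure ℚ ≃ₐ[ℚ] AlgebraicClosure ℚ)) (x : continuousH2S S M) :
    locRes₂S S M r x =
      H2add (L := sLevels S) (L' := pullLevels r) (A := M) (A' := Rep.res r M) r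
        (AddMonoidHom.id M) (fun _ _ => rfl) (compat_sLevels S r) x := by
  induction x using Submodule.Quotient.induction_on with
  | _ x => rfl

variable {k : Type} [CommRing k] {G G' : Type} [Group G] [Group G'] (f : G' →* G)
  (A : Rep.{0} k G) (B : Rep.{0} k G') (φ : Rep.res f A ⟶ B)

lemma equivar_of_hom : Equivar f A B φ.hom.toLinearMap.toAddMonoidHom :=
  fun g a => Rep.hom_comm_apply φ g a

/-- Mathlib's functoriality of `H1` is `H1addFull`. -/
theorem map_eq_H1addFull (x : groupCohomology.H1 A) :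
    (groupCohomology.map f φ 1).hom x =
      H1addFull f φ.hom.toLinearMap.toAddMonoidHom (equivar_of_hom f A B φ) x := by
  induction x using H1_induction_on with
  | _ c =>
    have h1 := H1addFull_π f φ.hom.toLinearMap.toAddMonoidHom (equivar_of_hom f A B φ) c
    have h2 := H1π_comp_map_apply f φ c
    exact h2.trans h1.symm

end Dictionary

end Fermat.Agent.CFT.Level

end
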