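import Fermat.Agent.CFT.Level.Defs

/-!
# P3 / CFT, layer L1 (Level): the discrete level system

For the discrete level system every cochain is level-constant, so level cohomology is Mathlib's
group cohomology: `H1 (discrete Q) B = ⊤` and `H2 (discrete Q) B ≃ₗ[k] groupCohomology.H2 B`.
These are the contracts `Plan.DiscreteH1`, `Plan.DiscreteH2` of `Level/Plan.lean`.
-/

set_option autoImplicit false

open CategoryTheory groupCohomology

noncomputable section

namespace Fermat.Agent.CFT.Level

section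

variable {Q : Type} [Group Q]

lemma isLC₁_discrete {X : Type*} (f : Q → X) : IsLC₁ (discrete Q) f :=
  ⟨(), trivial, fun g s hs => by
    have hs' : s = 1 := by simpa [discrete] using hs
    rw [hs', mul_one]⟩

lemma isLC₂_discrete {X : Type*} (f : Q × Q → X) : IsLC₂ (discrete Q) f :=
  ⟨(), trivial, fun g g' s s' hs hs' => by
    have h1 : s = 1 := by simpa [discrete] using hs
    have h2 : s' = 1 := by simpa [discrete] using hs'
    rw [h1, h2, mul_one, mul_one]⟩

variable {k : Type} [CommRing k] (B : Rep.{0} k Q)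

lemma Z2_discrete : Z2 (discrete Q) B = cocycles₂ B := by
  ext f
  exact ⟨fun h => h.1, fun h => ⟨h, isLC₂_discrete f⟩⟩

lemma B2_discrete : B2 (discrete Q) B = coboundaries₂ B := by
  ext f
  rw [mem_B2_iff]
  constructor
  · rintro ⟨x, -, rfl⟩
    exact ⟨x, rfl⟩
  · rintro ⟨x, rfl⟩
    exact ⟨x, isLC₁_discrete x, rfl⟩

/-- **[DiscreteH1]** (the body of `Plan.DiscreteH1`). -/
theorem discreteH1_holds :
    ∀ (Q : Type) [Group Q] (k : Type) [CommRing k] (B : Rep.{0} k Q), H1 (discrete Q) B = ⊤ := by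
  intro Q _ k _ B
  rw [eq_top_iff]
  intro x _
  obtain ⟨c, rfl⟩ := H1π_surjective B x
  exact (mem_H1_iff (discrete Q) B _).2 ⟨c, isLC₁_discrete _, rfl⟩

/-- The class map from level `2`-cocycles of the discrete level system to Mathlib's `H2`. -/
def discreteToH2 : ↥(Z2 (discrete Q) B) →ₗ[k] groupCohomology.H2 B :=
  (groupCohomology.H2π B).hom ∘ₗ Submodule.inclusion (inf_le_left : Z2 (discrete Q) B ≤ cocycles₂ B)

lemma discreteToH2_apply (a : cocycles₂ B) (ha : (a : Q × Q → B) ∈ Z2 (discrete Q) B) :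
    discreteToH2 B ⟨a, ha⟩ = (groupCohomology.H2π B).hom a := rfl

lemma discreteToH2_surjective : Function.Surjective (discreteToH2 B) := by
  intro x
  induction x using H2_induction_on with
  | _ a => exact ⟨⟨a, a.2, isLC₂_discrete _⟩, rfl⟩

lemma ker_discreteToH2 :
    LinearMap.ker (discreteToH2 B) =
      (B2 (discrete Q) B).comap (Z2 (discrete Q) B).subtype := by
  ext x
  rw [LinearMap.mem_ker, Submodule.mem_comap, B2_discrete]
  exact groupCohomology.H2π_eq_zero_iff (Submodule.inclusion (inf_le_left : Z2 (discrete Q) B ≤ cocycles₂ B) x)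

/-- Level `H²` for the discrete level system is Mathlib's `H2`. -/
def discreteH2Equiv : H2 (discrete Q) B ≃ₗ[k] groupCohomology.H2 B :=
  (Submodule.quotEquivOfEq _ _ (ker_discreteToH2 B).symm).trans
    (LinearMap.quotKerEquivOfSurjective (discreteToH2 B) (discreteToH2_surjective B))

lemma discreteH2Equiv_H2π (a : cocycles₂ B) (ha : (a : Q × Q → B) ∈ Z2 (discrete Q) B) :
    discreteH2Equiv B (H2π (discrete Q) B ⟨a, ha⟩) = (groupCohomology.H2π B).hom a := rfl

end

/-- **[DiscreteH2]** (the body of `Plan.DiscreteH2`). -/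
theorem discreteH2_holds :
    ∀ (Q : Type) [Group Q] (k : Type) [CommRing k] (B : Rep.{0} k Q),
      ∃ e : H2 (discrete Q) B ≃ₗ[k] groupCohomology.H2 B,
        ∀ (a : cocycles₂ B) (ha : (a : Q × Q → B) ∈ Z2 (discrete Q) B),
          e (H2π (discrete Q) B ⟨a, ha⟩) = (groupCohomology.H2π B).hom a :=
  fun _ _ _ _ B => ⟨discreteH2Equiv B, fun a ha => discreteH2Equiv_H2π B a ha⟩

end Fermat.Agent.CFT.Level

end
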