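import Fermat.Agent.CFT.Level.Discrete

/-!
# P3 / CFT, layer L1 (Level): detection at finite levels (DET / FIN)

Vocabulary of `Level/Defs.lean` (`IsFiniteLevel`, `H1add`, `H2add`, mixed coefficient rings).

* `exists_uniform₁`, `exists_uniform₂` ([R2] = `Plan.CochainLevel`): a level cochain with values
  in a smooth module is constant on the cosets of ONE normal level of finite index, which fixes
  all its values.
* `inflSurj₁`, `inflSurj₂` (`Plan.InflSurj₁/₂`): every level class is inflated from every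
  sufficiently deep finite-level model.
* `inflInj₁` (`Plan.InflInj₁`), `H1addFull_injective_of_invariants` : inflation is injective on
  `H¹`;  `inflInj₂` (`Plan.InflInj₂`): a finite-level class dying in level `H²` dies at every
  sufficiently deep finite level.
-/

set_option autoImplicit false

open CategoryTheory groupCohomology

noncomputable section

namespace Fermat.Agent.CFT.Level

variable {k : Type} [CommRing k] {G : Type} [Group G]

section uniform

variable {L : LevelSys G}

/-- A finite family of levels has a common lower bound. -/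
lemma LevelSys.exists_le_of_finite (L : LevelSys G) {T : Type*} [Finite T] (i : T → L.ι)
    (hi : ∀ t, L.P (i t)) : ∃ l, L.P l ∧ ∀ t, L.N l ≤ L.N (i t) := by
  classical
  cases nonempty_fintype T
  suffices h : ∀ s : Finset T, ∃ l, L.P l ∧ ∀ t ∈ s, L.N l ≤ L.N (i t) by
    obtain ⟨l, hl, h⟩ := h Finset.univ
    exact ⟨l, hl, fun t => h t (Finset.mem_univ t)⟩
  intro s
  induction s using Finset.induction_on with
  | empty =>
    obtain ⟨l, hl⟩ := L.nonempty
    exact ⟨l, hl, fun t ht => absurd ht (Finset.notMem_empty t)⟩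
  | insert a s _ ih =>
    obtain ⟨l, hl, h⟩ := ih
    obtain ⟨m, hm, hle⟩ := L.directed l (i a) hl (hi a)
    refine ⟨m, hm, fun t ht => ?_⟩
    rcases Finset.mem_insert.1 ht with rfl | ht
    · exact hle.trans inf_le_right
    · exact (hle.trans inf_le_left).trans (h t ht)

/-- Finitely many elements of a smooth module are fixed by a common level. -/
lemma exists_level_fixing_family {A : Rep k G} (hA : IsSmooth L A) {T : Type*} [Finite T]
    (v : T → A) : ∃ l, L.P l ∧ ∀ t, ∀ s ∈ L.N l, A.ρ s (v t) = v t := by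
  choose i hi hfix using fun t => hA (v t)
  obtain ⟨l, hl, hle⟩ := L.exists_le_of_finite i hi
  exact ⟨l, hl, fun t s hs => hfix t s (hle t hs)⟩

/-- **[R2], degree 1.** A level 1-cochain with values in a smooth module is constant on the
cosets of one normal level of finite index which fixes all its values. -/
theorem exists_uniform₁ (hL : L.IsCofinite) {A : Rep k G} (hA : IsSmooth L A) {x : G → A}
    (hx : IsLC₁ L x) :
    ∃ i, L.P i ∧ (L.N i).Normal ∧ (L.N i).FiniteIndex ∧
      (∀ g s, s ∈ L.N i → x (g * s) = x g) ∧ ∀ g, ∀ s ∈ L.N i, A.ρ s (x g) = x g := by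
  obtain ⟨i0, hi0, h0⟩ := hx
  obtain ⟨j, hj, hle, _, hfi⟩ := hL i0 hi0
  have : Finite (G ⧸ L.N j) := inferInstance
  obtain ⟨l, hl, hfix⟩ := exists_level_fixing_family hA (fun q : G ⧸ L.N j => x q.out)
  obtain ⟨m, hm, hmle⟩ := L.directed j l hj hl
  obtain ⟨n, hn, hnle, hnn, hnfi⟩ := hL m hm
  refine ⟨n, hn, hnn, hnfi, fun g s hs => h0 g s (hle ((hmle (hnle hs)).1)), fun g s hs => ?_⟩
  obtain ⟨t, ht⟩ := QuotientGroup.mk_out_eq_mul (L.N j) g
  have hxg : x g = x (QuotientGroup.mk (s := L.N j) g).out := by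
    rw [ht, h0 g t (hle t.2)]
  rw [hxg]
  exact hfix _ s ((hmle (hnle hs)).2)

/-- **[R2], degree 2.** A level 2-cochain with values in a smooth module is constant on the
cosets of one normal level of finite index which fixes all its values. -/
theorem exists_uniform₂ (hL : L.IsCofinite) {A : Rep k G} (hA : IsSmooth L A) {x : G × G → A}
    (hx : IsLC₂ L x) :
    ∃ i, L.P i ∧ (L.N i).Normal ∧ (L.N i).FiniteIndex ∧
      (∀ g g' s s', s ∈ L.N i → s' ∈ L.N i → x (g * s, g' * s') = x (g, g')) ∧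
      ∀ g g', ∀ s ∈ L.N i, A.ρ s (x (g, g')) = x (g, g') := by
  obtain ⟨i0, hi0, h0⟩ := hx
  obtain ⟨j, hj, hle, _, hfi⟩ := hL i0 hi0
  have : Finite (G ⧸ L.N j) := inferInstance
  obtain ⟨l, hl, hfix⟩ := exists_level_fixing_family hA
    (fun q : (G ⧸ L.N j) × (G ⧸ L.N j) => x (q.1.out, q.2.out))
  obtain ⟨m, hm, hmle⟩ := L.directed j l hj hl
  obtain ⟨n, hn, hnle, hnn, hnfi⟩ := hL m hm
  refine ⟨n, hn, hnn, hnfi, fun g g' s s' hs hs' =>
    h0 g g' s s' (hle ((hmle (hnle hs)).1)) (hle ((hmle (hnle hs')).1)), fun g g' s hs => ?_⟩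
  obtain ⟨t, ht⟩ := QuotientGroup.mk_out_eq_mul (L.N j) g
  obtain ⟨t', ht'⟩ := QuotientGroup.mk_out_eq_mul (L.N j) g'
  have hxg : x (g, g') = x ((QuotientGroup.mk (s := L.N j) g).out,
      (QuotientGroup.mk (s := L.N j) g').out) := by
    rw [ht, ht', h0 g g' t t' (hle t.2) (hle t'.2)]
  rw [hxg]
  exact hfix (QuotientGroup.mk g, QuotientGroup.mk g') s ((hmle (hnle hs)).2)

end uniform

section inflation

variable {k' : Type} [CommRing k'] {Q : Type} [Group Q]
variable {L : LevelSys G} {A : Rep.{0} k G} {i : L.ι} {π : G →* Q} {B : Rep.{0} k' Q}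
  {ι : B →+ A}

/-- In a model, `g` and a section of `π g` differ by an element of the kernel. -/
lemma exists_surjInv_eq (hπ : Function.Surjective π) (g : G) :
    ∃ n ∈ π.ker, Function.surjInv hπ (π g) = g * n :=
  ⟨g⁻¹ * Function.surjInv hπ (π g), by
    rw [MonoidHom.mem_ker, map_mul, map_inv, Function.surjInv_eq hπ, inv_mul_cancel],
    by rw [mul_inv_cancel_left]⟩

/-- Descend an `N_i`-uniform 1-cochain to a model of level `i`. -/
lemma IsFiniteLevel.exists_descent₁ (h : IsFiniteLevel L A i π B ι) {x : G → A}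
    (hx : ∀ g, ∀ s ∈ L.N i, x (g * s) = x g) (hfix : ∀ g, ∀ s ∈ L.N i, A.ρ s (x g) = x g) :
    ∃ y : Q → B, ∀ g, ι (y (π g)) = x g := by
  choose y hy using fun q : Q =>
    h.exists_of_fixed (x (Function.surjInv h.surjective q)) (hfix _)
  refine ⟨y, fun g => ?_⟩
  obtain ⟨n, hn, hg⟩ := exists_surjInv_eq h.surjective g
  rw [hy, hg, hx g n (h.ker_eq ▸ hn)]

/-- Descend an `N_i`-uniform 2-cochain to a model of level `i`. -/
lemma IsFiniteLevel.exists_descent₂ (h : IsFiniteLevel L A i π B ι) {x : G × G → A}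
    (hx : ∀ g g', ∀ s ∈ L.N i, ∀ s' ∈ L.N i, x (g * s, g' * s') = x (g, g'))
    (hfix : ∀ g g', ∀ s ∈ L.N i, A.ρ s (x (g, g')) = x (g, g')) :
    ∃ y : Q × Q → B, ∀ g g', ι (y (π g, π g')) = x (g, g') := by
  choose y hy using fun q : Q × Q =>
    h.exists_of_fixed (x (Function.surjInv h.surjective q.1, Function.surjInv h.surjective q.2))
      (hfix _ _)
  refine ⟨y, fun g g' => ?_⟩
  obtain ⟨n, hn, hg⟩ := exists_surjInv_eq h.surjective g
  obtain ⟨n', hn', hg'⟩ := exists_surjInv_eq h.surjective g'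
  rw [hy, hg, hg', hx g g' n (h.ker_eq ▸ hn) n' (h.ker_eq ▸ hn')]

/-- A descended cochain of a 1-cocycle is a 1-cocycle. -/
lemma IsFiniteLevel.descent_mem_cocycles₁ (h : IsFiniteLevel L A i π B ι) {x : G → A}
    (hx : x ∈ cocycles₁ A) {y : Q → B} (hy : ∀ g, ι (y (π g)) = x g) : y ∈ cocycles₁ B := by
  rw [mem_cocycles₁_iff]
  intro q₁ q₂
  obtain ⟨g₁, rfl⟩ := h.surjective q₁
  obtain ⟨g₂, rfl⟩ := h.surjective q₂
  apply h.injective
  have hc := (mem_cocycles₁_iff x).1 hx g₁ g₂
  rw [map_add, h.equivar, ← map_mul, hy, hy, hy]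
  exact hc

/-- A descended cochain of a 2-cocycle is a 2-cocycle. -/
lemma IsFiniteLevel.descent_mem_cocycles₂ (h : IsFiniteLevel L A i π B ι) {x : G × G → A}
    (hx : x ∈ cocycles₂ A) {y : Q × Q → B} (hy : ∀ g g', ι (y (π g, π g')) = x (g, g')) :
    y ∈ cocycles₂ B := by
  rw [mem_cocycles₂_iff]
  intro q₁ q₂ q₃
  obtain ⟨g₁, rfl⟩ := h.surjective q₁
  obtain ⟨g₂, rfl⟩ := h.surjective q₂
  obtain ⟨g₃, rfl⟩ := h.surjective q₃
  apply h.injective
  have hc := (mem_cocycles₂_iff x).1 hx g₁ g₂ g₃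
  rw [map_add, map_add, h.equivar, ← map_mul, ← map_mul, hy, hy, hy, hy]
  exact hc

/-- **[InflSurj₂]** Every class of level `H²` of a smooth module is inflated from every
sufficiently deep finite-level model. -/
theorem inflSurj₂ (hL : L.IsCofinite) (hA : IsSmooth L A) (x : H2 L A) :
    ∃ i, L.P i ∧ ∀ j, L.P j → (L.N j).Normal → L.N j ≤ L.N i →
      ∀ (Q : Type) [Group Q] (π : G →* Q) (k' : Type) [CommRing k'] (B : Rep.{0} k' Q)
        (ι : B →+ A) (h : IsFiniteLevel L A j π B ι),
        ∃ y : H2 (discrete Q) B, H2add π ι h.equivar h.compat y = x := by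
  induction x using Submodule.Quotient.induction_on with
  | H c =>
    obtain ⟨i, hi, -, -, hc1, hc2⟩ := exists_uniform₂ hL hA c.2.2
    refine ⟨i, hi, fun j _ _ hle Q _ π k' _ B ι h => ?_⟩
    obtain ⟨y, hy⟩ := h.exists_descent₂ (x := (c : G × G → A))
      (fun g g' s hs s' hs' => hc1 g g' s s' (hle hs) (hle hs'))
      (fun g g' s hs => hc2 g g' s (hle hs))
    have hcoc : y ∈ cocycles₂ B := h.descent_mem_cocycles₂ c.2.1 hy
    refine ⟨H2π (discrete Q) B ⟨y, hcoc, isLC₂_discrete y⟩, ?_⟩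
    rw [H2add_π]
    change H2π L A _ = H2π L A c
    congr 1
    exact Subtype.ext (funext fun p => hy p.1 p.2)

/-- **[InflSurj₁]** Every class of level `H¹` of a smooth module is inflated from every
sufficiently deep finite-level model. -/
theorem inflSurj₁ (hL : L.IsCofinite) (hA : IsSmooth L A) (x : H1 L A) :
    ∃ i, L.P i ∧ ∀ j, L.P j → (L.N j).Normal → L.N j ≤ L.N i →
      ∀ (Q : Type) [Group Q] (π : G →* Q) (k' : Type) [CommRing k'] (B : Rep.{0} k' Q)
        (ι : B →+ A) (h : IsFiniteLevel L A j π B ι),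
        ∃ y : H1 (discrete Q) B, H1add π ι h.equivar h.compat y = x := by
  obtain ⟨c, hc, rfl⟩ := exists_H1mk_eq L A x
  obtain ⟨i, hi, -, -, hc1, hc2⟩ := exists_uniform₁ hL hA hc
  refine ⟨i, hi, fun j _ _ hle Q _ π k' _ B ι h => ?_⟩
  obtain ⟨y, hy⟩ := h.exists_descent₁ (x := (c : G → A))
    (fun g s hs => hc1 g s (hle hs)) (fun g s hs => hc2 g s (hle hs))
  have hcoc : y ∈ cocycles₁ B := h.descent_mem_cocycles₁ c.2 hy
  refine ⟨H1mk (discrete Q) B ⟨y, hcoc⟩ (isLC₁_discrete _), ?_⟩
  apply Subtype.ext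
  rw [coe_H1add, coe_H1mk, coe_H1mk, H1addFull_π]
  congr 1
  exact Subtype.ext (funext fun g => hy g)

/-- Inflation in degree 1 (on Mathlib's full `H1`, mixed coefficient rings) is injective for a
surjection `π` and an equivariant injection `ι` onto the `ker π`-invariants. No levels are
involved. -/
theorem H1addFull_injective_of_invariants (hι : Equivar π B A ι)
    (hsurj : Function.Surjective π) (hinj : Function.Injective ι)
    (hrange : ∀ a : A, (∀ s ∈ π.ker, A.ρ s a = a) → ∃ b, ι b = a) :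
    Function.Injective (H1addFull π ι hι) := by
  rw [injective_iff_map_eq_zero]
  intro x hx
  induction x using groupCohomology.H1_induction_on with
  | h c =>
    rw [H1addFull_π] at hx
    obtain ⟨a, ha⟩ := (groupCohomology.H1π_eq_zero_iff _).1 hx
    have ha' : ∀ g, A.ρ g a - a = ι (c (π g)) := fun g => congrFun ha g
    have hfix : ∀ s ∈ π.ker, A.ρ s a = a := by
      intro s hs
      have h1 := ha' s
      rw [MonoidHom.mem_ker.1 hs, cocycles₁_map_one, map_zero, sub_eq_zero] at h1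
      exact h1
    obtain ⟨b, rfl⟩ := hrange a hfix
    refine (groupCohomology.H1π_eq_zero_iff c).2 ⟨b, funext fun q => ?_⟩
    obtain ⟨g, rfl⟩ := hsurj q
    apply hinj
    have h1 := ha' g
    rw [← hι, ← map_sub] at h1
    exact h1

/-- **[InflInj₁]** Inflation from a finite level is injective on `H¹`. -/
theorem inflInj₁ (h : IsFiniteLevel L A i π B ι) :
    Function.Injective (H1add (L := discrete Q) (L' := L) π ι h.equivar h.compat) := by
  intro x y hxy
  apply Subtype.ext
  apply H1addFull_injective_of_invariants h.equivar h.surjective h.injective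
    (fun a ha => h.exists_of_fixed a (h.ker_eq ▸ ha))
  exact congrArg Subtype.val hxy

/-- **[InflInj₂]** A class of a finite level which dies in `H²(L, A)` dies at every
sufficiently deep normal level. -/
theorem inflInj₂ (hL : L.IsCofinite) (hA : IsSmooth L A) (h : IsFiniteLevel L A i π B ι)
    (y : H2 (discrete Q) B) (hy : H2add π ι h.equivar h.compat y = 0) :
    ∃ i', L.P i' ∧ L.N i' ≤ L.N i ∧ ∀ j, L.P j → (L.N j).Normal → L.N j ≤ L.N i' →
      ∀ (Q' : Type) [Group Q'] (π' : G →* Q') (k'' : Type) [CommRing k''] (B' : Rep.{0} k'' Q')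
        (ι' : B' →+ A), IsFiniteLevel L A j π' B' ι' →
      ∀ (q : Q' →* Q) (β : B →+ B') (hβ : Equivar q B B' β),
        (∀ g, q (π' g) = π g) → (∀ b, ι' (β b) = ι b) →
        H2add (L := discrete Q) (L' := discrete Q') q β hβ (compat_discrete_discrete q) y = 0 := by
  induction y using Submodule.Quotient.induction_on with
  | H c =>
    have hy' : H2π L A (Z2add π ι h.equivar h.compat c) = 0 := hy
    obtain ⟨x, hx, hdx⟩ := (mem_B2_iff L A _).1 ((H2π_eq_zero_iff L A _).1 hy')
    obtain ⟨i₁, hi₁, -, -, hx1, hx2⟩ := exists_uniform₁ hL hA hx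
    obtain ⟨i', hi', hle'⟩ := L.directed i i₁ h.isLevel hi₁
    refine ⟨i', hi', hle'.trans inf_le_left,
      fun j _ _ hle Q' _ π' k'' _ B' ι' h' q β hβ hq hιβ => ?_⟩
    have hle₁ : L.N j ≤ L.N i₁ := hle.trans (hle'.trans inf_le_right)
    obtain ⟨x', hx'⟩ := h'.exists_descent₁ (x := x)
      (fun g s hs => hx1 g s (hle₁ hs)) (fun g s hs => hx2 g s (hle₁ hs))
    change H2π (discrete Q') B' (Z2add q β hβ (compat_discrete_discrete q) c) = 0
    refine (H2π_eq_zero_iff _ _ _).2 ((mem_B2_iff _ _ _).2 ⟨x', isLC₁_discrete x', ?_⟩)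
    funext ⟨q₁, q₂⟩
    obtain ⟨g₁, rfl⟩ := h'.surjective q₁
    obtain ⟨g₂, rfl⟩ := h'.surjective q₂
    apply h'.injective
    have h1 := congrFun hdx (g₁, g₂)
    rw [d₁₂_hom_apply] at h1
    rw [d₁₂_hom_apply, coe_Z2add, hιβ, hq, hq, map_add, map_sub, h'.equivar, ← map_mul,
      hx', hx', hx', h1]
    rfl

end inflation

end Fermat.Agent.CFT.Level

end
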