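import Fermat.Agent.CFT.Level.Defs

/-!
# P3 / CFT, layer L1 (Level): the long exact sequence in degrees 0, 1, 2

For a level system `L` on `G` which is cofinally normal of finite index (`L.IsCofinite`) and a
short exact sequence `0 → A → B → C → 0` of `G`-modules (`IsSES`: additive equivariant maps,
possibly different coefficient rings) with `B` smooth, we construct the connecting maps

* `δ₀ : C^G →+ H1 L A`,
* `δ₁ : H1 L C →+ H2 L A`,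

show that they satisfy the specifications `IsDelta₀`, `IsDelta₁` of `Level/Defs.lean`
(computation with ANY lift), and prove, for ANY maps satisfying the specifications, exactness of
`B^G → C^G → H1 L A → H1 L B → H1 L C → H2 L A → H2 L B`.

Main statements (in the exact shape of the props of `Level/Plan.lean`):
`cochainLevel`, `existsDelta₀`, `existsDelta₁`, `exactH0C`, `exactH1A`, `exactH1B`, `exactH1C`,
`exactH2A`.
-/

set_option autoImplicit false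

open CategoryTheory groupCohomology

noncomputable section

namespace Fermat.Agent.CFT.Level.LES

variable {G : Type} [Group G] {L : LevelSys G}

/-! ### Classes of cocycles given as plain functions -/

section classes

variable {X Y : Type*}

/-- Injective post-composition detects level-constancy. -/
lemma isLC₁_of_comp {x : G → X} {α : X → Y} (hα : Function.Injective α)
    (hx : IsLC₁ L (α ∘ x)) : IsLC₁ L x := by
  obtain ⟨i, hi, h⟩ := hx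
  exact ⟨i, hi, fun g s hs => hα (h g s hs)⟩

lemma isLC₂_of_comp {x : G × G → X} {α : X → Y} (hα : Function.Injective α)
    (hx : IsLC₂ L (α ∘ x)) : IsLC₂ L x := by
  obtain ⟨i, hi, h⟩ := hx
  exact ⟨i, hi, fun g g' s s' hs hs' => hα (h g g' s s' hs hs')⟩

lemma isLC₁_neg [Neg X] {x : G → X} (hx : IsLC₁ L x) : IsLC₁ L (-x) :=
  hx.comp (- ·)

lemma isLC₁_sub [SubNegMonoid X] {x y : G → X} (hx : IsLC₁ L x) (hy : IsLC₁ L y) :
    IsLC₁ L (x - y) := by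
  rw [sub_eq_add_neg]; exact hx.add (isLC₁_neg hy)

variable {k : Type} [CommRing k] {A : Rep.{0} k G}

/-- The class in `H1 L A` of a level-constant 1-cocycle given as a function. -/
def mk₁ (c : G → A) (h₁ : c ∈ cocycles₁ A) (h₂ : IsLC₁ L c) : H1 L A :=
  H1mk L A ⟨c, h₁⟩ h₂

/-- The class in `H2 L A` of a level-constant 2-cocycle given as a function. -/
def mk₂ (c : G × G → A) (h₁ : c ∈ cocycles₂ A) (h₂ : IsLC₂ L c) : H2 L A :=
  H2π L A ⟨c, h₁, h₂⟩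

lemma exists_mk₁ (x : H1 L A) : ∃ c h₁ h₂, mk₁ (L := L) (A := A) c h₁ h₂ = x := by
  obtain ⟨c, hc, rfl⟩ := exists_H1mk_eq L A x
  exact ⟨c.1, c.2, hc, rfl⟩

lemma exists_mk₂ (x : H2 L A) : ∃ c h₁ h₂, mk₂ (L := L) (A := A) c h₁ h₂ = x := by
  obtain ⟨⟨c, h₁, h₂⟩, rfl⟩ := H2π_surjective L A x
  exact ⟨c, h₁, h₂, rfl⟩

lemma mk₁_eq_zero_iff {c : G → A} (h₁ : c ∈ cocycles₁ A) (h₂ : IsLC₁ L c) :
    mk₁ c h₁ h₂ = 0 ↔ ∃ a : A, (d₀₁ A).hom a = c :=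
  H1mk_eq_zero_iff L A ⟨c, h₁⟩ h₂

lemma mk₂_eq_zero_iff {c : G × G → A} (h₁ : c ∈ cocycles₂ A) (h₂ : IsLC₂ L c) :
    mk₂ c h₁ h₂ = 0 ↔ ∃ x : G → A, IsLC₁ L x ∧ (d₁₂ A).hom x = c := by
  rw [mk₂, H2π_eq_zero_iff, mem_B2_iff]

lemma mk₁_congr {c c' : G → A} (h : c = c') (h₁ : c ∈ cocycles₁ A) (h₂ : IsLC₁ L c) :
    mk₁ c h₁ h₂ = mk₁ c' (h ▸ h₁) (h ▸ h₂) := by
  subst h; rfl

lemma mk₂_congr {c c' : G × G → A} (h : c = c') (h₁ : c ∈ cocycles₂ A) (h₂ : IsLC₂ L c) :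
    mk₂ c h₁ h₂ = mk₂ c' (h ▸ h₁) (h ▸ h₂) := by
  subst h; rfl

/-- Two level cocycles have the same class in `H1 L A` iff they differ by a coboundary. -/
lemma mk₁_eq_mk₁_iff {c c' : G → A} (h₁ : c ∈ cocycles₁ A) (h₂ : IsLC₁ L c)
    (h₁' : c' ∈ cocycles₁ A) (h₂' : IsLC₁ L c') :
    mk₁ c h₁ h₂ = mk₁ c' h₁' h₂' ↔ ∃ a : A, (d₀₁ A).hom a = c - c' := by
  rw [mk₁, mk₁, Subtype.ext_iff]
  exact H1π_eq_iff (⟨c, h₁⟩ : cocycles₁ A) ⟨c', h₁'⟩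

lemma mk₁_zero (h₁ : (0 : G → A) ∈ cocycles₁ A) (h₂ : IsLC₁ L (0 : G → A)) :
    mk₁ (0 : G → A) h₁ h₂ = 0 :=
  (mk₁_eq_zero_iff h₁ h₂).2 ⟨0, map_zero _⟩

lemma mk₂_zero (h₁ : (0 : G × G → A) ∈ cocycles₂ A) (h₂ : IsLC₂ L (0 : G × G → A)) :
    mk₂ (0 : G × G → A) h₁ h₂ = 0 :=
  (mk₂_eq_zero_iff h₁ h₂).2 ⟨0, isLC₁_const L 0, map_zero _⟩

variable {G' : Type} [Group G'] {k' : Type} [CommRing k'] {A' : Rep.{0} k' G'}
  {L' : LevelSys G'} (f : G' →* G) (α : A →+ A') (hα : Equivar f A A' α)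
  (hf : L'.Compat L f)

lemma H1add_mk₁ {c : G → A} (h₁ : c ∈ cocycles₁ A) (h₂ : IsLC₁ L c) :
    H1add f α hα hf (mk₁ c h₁ h₂) =
      mk₁ (fun g => α (c (f g))) (addPP_mem_cocycles₁ f α hα h₁)
        ((IsLC₁.precomp hf h₂).comp α :) :=
  Subtype.ext (H1addFull_π f α hα ⟨c, h₁⟩)

lemma H2add_mk₂ {c : G × G → A} (h₁ : c ∈ cocycles₂ A) (h₂ : IsLC₂ L c) :
    H2add f α hα hf (mk₂ c h₁ h₂) =
      mk₂ (fun g : G' × G' => α (c (f g.1, f g.2))) (addPP_mem_cocycles₂ f α hα h₁)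
        ((IsLC₂.precomp hf h₂).comp α :) :=
  rfl

end classes

/-! ### Levels of level-constant cochains with smooth values -/

/-- A level-constant 1-cochain is constant on the cosets of a normal finite-index level. -/
lemma exists_normal₁ (hL : L.IsCofinite) {X : Type*} {f : G → X} (hf : IsLC₁ L f) :
    ∃ i, L.P i ∧ (L.N i).Normal ∧ (L.N i).FiniteIndex ∧ ∀ g s, s ∈ L.N i → f (g * s) = f g := by
  obtain ⟨i, hi, h⟩ := hf
  obtain ⟨j, hj, hji, hn, hfi⟩ := hL i hi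
  exact ⟨j, hj, hn, hfi, fun g s hs => h g s (hji hs)⟩

/-- A level-constant 1-cochain takes finitely many values. -/
lemma finite_range (hL : L.IsCofinite) {X : Type*} {f : G → X} (hf : IsLC₁ L f) :
    (Set.range f).Finite := by
  obtain ⟨i, hi, hn, hfi, h⟩ := exists_normal₁ hL hf
  have : Finite (G ⧸ L.N i) := Subgroup.finite_quotient_of_finiteIndex
  refine (Set.finite_range (fun q : G ⧸ L.N i => f q.out)).subset ?_
  rintro _ ⟨g, rfl⟩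
  refine ⟨(g : G ⧸ L.N i), ?_⟩
  obtain ⟨s, hs⟩ := QuotientGroup.mk_out_eq_mul (L.N i) g
  simp only [hs]
  exact h g s s.2

section smooth

variable {k : Type} [CommRing k] {A : Rep.{0} k G}

/-- Finitely many elements of a smooth module are fixed by a common level. -/
lemma exists_level_fixing (hA : IsSmooth L A) {T : Set A} (hT : T.Finite) :
    ∃ i, L.P i ∧ ∀ a ∈ T, ∀ s ∈ L.N i, A.ρ s a = a := by
  induction T, hT using Set.Finite.induction_on with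
  | empty =>
    obtain ⟨i, hi⟩ := L.nonempty
    exact ⟨i, hi, by simp⟩
  | @insert a T _ _ ih =>
    obtain ⟨i, hi, h⟩ := ih
    obtain ⟨j, hj, h'⟩ := hA a
    obtain ⟨l, hl, hle⟩ := L.directed i j hi hj
    refine ⟨l, hl, fun x hx s hs => ?_⟩
    rcases Set.mem_insert_iff.1 hx with rfl | hx
    · exact h' s (hle hs).2
    · exact h x hx s (hle hs).1

/-- [R2] A level-constant cochain with values in a smooth module is constant on the cosets of,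
and has all its values fixed by, ONE normal finite-index level. -/
lemma exists_uniform (hL : L.IsCofinite) (hA : IsSmooth L A) {b : G → A} (hb : IsLC₁ L b) :
    ∃ i, L.P i ∧ (L.N i).Normal ∧ (L.N i).FiniteIndex ∧ (∀ g s, s ∈ L.N i → b (g * s) = b g) ∧
      ∀ g, ∀ s ∈ L.N i, A.ρ s (b g) = b g := by
  obtain ⟨i, hi, h⟩ := hb
  obtain ⟨j, hj, h'⟩ := exists_level_fixing hA (finite_range hL ⟨i, hi, h⟩)
  obtain ⟨l, hl, hle⟩ := L.directed i j hi hj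
  obtain ⟨m, hm, hml, hn, hfi⟩ := hL l hl
  exact ⟨m, hm, hn, hfi, fun g s hs => h g s (hle (hml hs)).1,
    fun g s hs => h' _ ⟨g, rfl⟩ s (hle (hml hs)).2⟩

/-- Coboundaries of elements of a smooth module are level-constant. -/
lemma isLC₁_d₀₁ (hA : IsSmooth L A) (a : A) : IsLC₁ L ((d₀₁ A).hom a) := by
  obtain ⟨i, hi, h⟩ := hA a
  refine ⟨i, hi, fun g s hs => ?_⟩
  simp only [d₀₁_hom_apply, map_mul, Module.End.mul_apply, h s hs]

/-- Coboundaries of level-constant 1-cochains with values in a smooth module are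
level-constant. -/
lemma isLC₂_d₁₂ (hL : L.IsCofinite) (hA : IsSmooth L A) {b : G → A} (hb : IsLC₁ L b) :
    IsLC₂ L ((d₁₂ A).hom b) := by
  obtain ⟨i, hi, hn, -, hc, hfix⟩ := exists_uniform hL hA hb
  refine ⟨i, hi, fun g g' s s' hs hs' => ?_⟩
  simp only [d₁₂_hom_apply]
  have h1 : b (g' * s') = b g' := hc g' s' hs'
  have h2 : b (g * s) = b g := hc g s hs
  have h3 : b (g * s * (g' * s')) = b (g * g') := by
    have e : g * s * (g' * s') = (g * g') * ((g'⁻¹ * s * g') * s') := by group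
    rw [e]
    refine hc _ _ (mul_mem ?_ hs')
    simpa using hn.conj_mem s hs g'⁻¹
  rw [h1, h2, h3, map_mul, Module.End.mul_apply, hfix g' s hs]

end smooth

/-! ### Short exact sequences -/

variable {k₁ k₂ k₃ : Type} [CommRing k₁] [CommRing k₂] [CommRing k₃]
  {A : Rep.{0} k₁ G} {B : Rep.{0} k₂ G} {C : Rep.{0} k₃ G}

/-- `0 → A → B → C → 0` is a short exact sequence of `G`-modules (additive equivariant maps). -/
structure SES (φ : A →+ B) (ψ : B →+ C) : Prop where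
  φ_comm : ∀ (g : G) (a : A), φ (A.ρ g a) = B.ρ g (φ a)
  ψ_comm : ∀ (g : G) (b : B), ψ (B.ρ g b) = C.ρ g (ψ b)
  inj : Function.Injective φ
  surj : Function.Surjective ψ
  exact : ∀ b : B, ψ b = 0 ↔ ∃ a : A, φ a = b

variable {φ : A →+ B} {ψ : B →+ C}

namespace SES

variable (h : SES φ ψ)
include h

lemma ψ_φ (a : A) : ψ (φ a) = 0 := (h.exact _).2 ⟨a, rfl⟩

lemma comp_d₀₁_φ (a : A) : φ ∘ (d₀₁ A).hom a = (d₀₁ B).hom (φ a) :=
  addPP_d₀₁ (MonoidHom.id G) φ h.φ_comm a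

lemma comp_d₀₁_ψ (b : B) : ψ ∘ (d₀₁ B).hom b = (d₀₁ C).hom (ψ b) :=
  addPP_d₀₁ (MonoidHom.id G) ψ h.ψ_comm b

lemma comp_d₁₂_φ (x : G → A) : φ ∘ (d₁₂ A).hom x = (d₁₂ B).hom (φ ∘ x) :=
  addPP_d₁₂ (MonoidHom.id G) φ h.φ_comm x

lemma comp_d₁₂_ψ (x : G → B) : ψ ∘ (d₁₂ B).hom x = (d₁₂ C).hom (ψ ∘ x) :=
  addPP_d₁₂ (MonoidHom.id G) ψ h.ψ_comm x

/-- Pointwise preimage under `φ` of a function killed by `ψ`. -/
lemma exists_pre {T : Type*} (x : T → B) (hx : ∀ t, ψ (x t) = 0) :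
    ∃ a : T → A, ∀ t, φ (a t) = x t :=
  ⟨fun t => ((h.exact _).1 (hx t)).choose, fun t => ((h.exact _).1 (hx t)).choose_spec⟩

/-- A 1-cochain of `A` whose image in `B` is a cocycle is a cocycle. -/
lemma mem_cocycles₁_of_comp {a : G → A} (ha : φ ∘ a ∈ cocycles₁ B) : a ∈ cocycles₁ A := by
  rw [mem_cocycles₁_iff] at ha ⊢
  intro g g'
  apply h.inj
  rw [map_add, h.φ_comm]
  exact ha g g'

/-- A 2-cochain of `A` whose image in `B` is a cocycle is a cocycle. -/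
lemma mem_cocycles₂_of_comp {a : G × G → A} (ha : φ ∘ a ∈ cocycles₂ B) : a ∈ cocycles₂ A := by
  rw [mem_cocycles₂_iff] at ha ⊢
  intro g g' g''
  apply h.inj
  rw [map_add, map_add, h.φ_comm]
  exact ha g g' g''

/-- A 1-cochain of `A` whose image in `B` is a coboundary `d₀₁ b` is a cocycle. -/
lemma mem_cocycles₁_of_lift {a : G → A} {b : B} (ha : ∀ g, φ (a g) = (d₀₁ B).hom b g) :
    a ∈ cocycles₁ A :=
  h.mem_cocycles₁_of_comp (by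
    rw [show φ ∘ a = (d₀₁ B).hom b from funext ha]; exact d₀₁_apply_mem_cocycles₁ b)

/-- A 2-cochain of `A` whose image in `B` is a coboundary `d₁₂ b` is a cocycle. -/
lemma mem_cocycles₂_of_lift {a : G × G → A} {b : G → B}
    (ha : ∀ p, φ (a p) = (d₁₂ B).hom b p) : a ∈ cocycles₂ A :=
  h.mem_cocycles₂_of_comp (by
    rw [show φ ∘ a = (d₁₂ B).hom b from funext ha]; exact d₁₂_apply_mem_cocycles₂ b)

/-- A 1-cochain of `A` whose image in `B` is the coboundary of an element of the smooth module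
`B` is level-constant. -/
lemma isLC₁_of_lift (hB : IsSmooth L B) {a : G → A} {b : B}
    (ha : ∀ g, φ (a g) = (d₀₁ B).hom b g) : IsLC₁ L a :=
  isLC₁_of_comp h.inj (by
    rw [show φ ∘ a = (d₀₁ B).hom b from funext ha]; exact isLC₁_d₀₁ hB b)

/-- A 2-cochain of `A` whose image in `B` is the coboundary of a level-constant 1-cochain of
the smooth module `B` is level-constant. -/
lemma isLC₂_of_lift (hL : L.IsCofinite) (hB : IsSmooth L B) {a : G × G → A} {b : G → B}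
    (hb : IsLC₁ L b) (ha : ∀ p, φ (a p) = (d₁₂ B).hom b p) : IsLC₂ L a :=
  isLC₂_of_comp h.inj (by
    rw [show φ ∘ a = (d₁₂ B).hom b from funext ha]; exact isLC₂_d₁₂ hL hB hb)

end SES

/-- Pointwise preimage under `φ` (junk value outside the range). -/
def pre (φ : A →+ B) {T : Type*} (x : T → B) : T → A := fun t => Function.invFun φ (x t)

lemma SES.φ_pre (h : SES φ ψ) {T : Type*} {x : T → B} (hx : ∀ t, ψ (x t) = 0) (t : T) :
    φ (pre φ x t) = x t :=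
  Function.invFun_eq ((h.exact _).1 (hx t))

lemma SES.pre_eq (h : SES φ ψ) {T : Type*} {x : T → B} {a : T → A} (ha : ∀ t, φ (a t) = x t) :
    pre φ x = a := by
  funext t
  apply h.inj
  rw [ha]
  exact Function.invFun_eq ⟨a t, ha t⟩

/-! ### The connecting map `δ₁ : H1 L C → H2 L A` -/

section delta₁

variable (L ψ) in
/-- Level-constant lifts to `B` of level-constant 1-cocycles of `C`. -/
def liftGrp : AddSubgroup (G → B) where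
  carrier := {b | IsLC₁ L b ∧ ψ ∘ b ∈ cocycles₁ C}
  add_mem' := by
    rintro b b' ⟨h1, h2⟩ ⟨h1', h2'⟩
    refine ⟨h1.add h1', ?_⟩
    have e : ψ ∘ (b + b') = ψ ∘ b + ψ ∘ b' := by ext g; simp
    rw [e]; exact add_mem h2 h2'
  zero_mem' := by
    refine ⟨isLC₁_const L 0, ?_⟩
    have e : ψ ∘ (0 : G → B) = 0 := by ext g; simp
    rw [e]; exact zero_mem _
  neg_mem' := by
    rintro b ⟨h1, h2⟩
    refine ⟨isLC₁_neg h1, ?_⟩
    have e : ψ ∘ (-b) = -(ψ ∘ b) := by ext g; simp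
    rw [e]; exact neg_mem h2

variable (L ψ) in
/-- The cocycle of `C` below a lift. -/
def liftToZ1 : ↥(liftGrp L ψ) →+ ↥(Z1f L C) where
  toFun b := ⟨ψ ∘ b.1, b.2.2, b.2.1.comp ψ⟩
  map_zero' := Subtype.ext (funext fun _ => map_zero ψ)
  map_add' _ _ := Subtype.ext (funext fun _ => map_add ψ _ _)

variable (L ψ) in
/-- The class in `H1 L C` below a lift. -/
def liftToH1 : ↥(liftGrp L ψ) →+ H1 L C :=
  (Z1toH1 L C).toAddMonoidHom.comp (liftToZ1 L ψ)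

lemma liftToH1_mk {b : G → B} (hb : IsLC₁ L b) (hc : ψ ∘ b ∈ cocycles₁ C) :
    liftToH1 L ψ ⟨b, hb, hc⟩ = mk₁ (ψ ∘ b) hc (hb.comp ψ) := rfl

lemma SES.liftToH1_surjective (h : SES φ ψ) : Function.Surjective (liftToH1 L ψ) := by
  intro x
  obtain ⟨c, h₁, h₂, rfl⟩ := exists_mk₁ x
  have e : ψ ∘ (Function.surjInv h.surj ∘ c) = c := by
    ext g; exact Function.surjInv_eq h.surj (c g)
  have hc' : ψ ∘ (Function.surjInv h.surj ∘ c) ∈ cocycles₁ C := by rw [e]; exact h₁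
  refine ⟨⟨Function.surjInv h.surj ∘ c, h₂.comp _, hc'⟩, ?_⟩
  exact (liftToH1_mk (h₂.comp _) hc').trans (mk₁_congr e _ _)

lemma SES.ψ_d₁₂_lift (h : SES φ ψ) {b : G → B} (hc : ψ ∘ b ∈ cocycles₁ C) (p : G × G) :
    ψ ((d₁₂ B).hom b p) = 0 := by
  have := congrFun (h.comp_d₁₂_ψ b) p
  rw [Function.comp_apply] at this
  rw [this, LinearMap.mem_ker.1 hc]
  rfl

/-- The 2-cocycle of `A` attached to a lift: `φ⁻¹ ∘ d₁₂ b`. -/
def liftToZ2 (h : SES φ ψ) (hL : L.IsCofinite) (hB : IsSmooth L B) :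
    ↥(liftGrp L ψ) →+ ↥(Z2 L A) where
  toFun b := ⟨pre φ ((d₁₂ B).hom b.1),
    h.mem_cocycles₂_of_lift (fun p => h.φ_pre (h.ψ_d₁₂_lift b.2.2) p),
    isLC₂_of_comp h.inj (by
      have e : φ ∘ pre φ ((d₁₂ B).hom b.1) = (d₁₂ B).hom b.1 :=
        funext fun p => h.φ_pre (h.ψ_d₁₂_lift b.2.2) p
      rw [e]
      exact isLC₂_d₁₂ hL hB b.2.1)⟩
  map_zero' := Subtype.ext (h.pre_eq (fun p => by simp))
  map_add' b b' := Subtype.ext (h.pre_eq (fun p => by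
    show φ (pre φ ((d₁₂ B).hom b.1) p + pre φ ((d₁₂ B).hom b'.1) p) = _
    rw [map_add, h.φ_pre (h.ψ_d₁₂_lift b.2.2), h.φ_pre (h.ψ_d₁₂_lift b'.2.2)]
    show _ = (d₁₂ B).hom (b.1 + b'.1) p
    rw [map_add]
    rfl))

lemma SES.liftToH1_ker_le (h : SES φ ψ) (hL : L.IsCofinite) (hB : IsSmooth L B) :
    (liftToH1 L ψ).ker ≤ ((H2π L A).toAddMonoidHom.comp (liftToZ2 h hL hB)).ker := by
  rintro ⟨b, hb, hc⟩ h0
  rw [AddMonoidHom.mem_ker] at h0 ⊢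
  obtain ⟨c₀, hc₀⟩ := (mk₁_eq_zero_iff hc (hb.comp ψ)).1 h0
  obtain ⟨b₀, rfl⟩ := h.surj c₀
  have hkill : ∀ g, ψ ((b - (d₀₁ B).hom b₀) g) = 0 := by
    intro g
    have e1 := congrFun (h.comp_d₀₁_ψ b₀) g
    have e2 := congrFun hc₀ g
    simp only [Function.comp_apply] at e1 e2
    rw [Pi.sub_apply, map_sub, e1, e2, sub_self]
  obtain ⟨x, hx⟩ := h.exists_pre _ hkill
  have hxl : IsLC₁ L x := by
    refine isLC₁_of_comp h.inj ?_
    have e : φ ∘ x = b - (d₀₁ B).hom b₀ := funext hx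
    rw [e]
    exact isLC₁_sub hb (isLC₁_d₀₁ hB b₀)
  refine (H2π_eq_zero_iff L A _).2 ((mem_B2_iff L A _).2 ⟨x, hxl, ?_⟩)
  symm
  refine h.pre_eq (fun p => ?_)
  have e1 := congrFun (h.comp_d₁₂_φ x) p
  rw [Function.comp_apply] at e1
  have e : φ ∘ x = b - (d₀₁ B).hom b₀ := funext hx
  rw [e1, e, map_sub, LinearMap.mem_ker.1 (d₀₁_apply_mem_cocycles₁ (A := B) b₀), sub_zero]

/-- The connecting map `δ₁ : H1 L C → H2 L A` of a short exact sequence with smooth middle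
term. -/
def δ₁ (h : SES φ ψ) (hL : L.IsCofinite) (hB : IsSmooth L B) : H1 L C →+ H2 L A :=
  (liftToH1 L ψ).liftOfSurjective h.liftToH1_surjective
    ⟨(H2π L A).toAddMonoidHom.comp (liftToZ2 h hL hB), h.liftToH1_ker_le hL hB⟩

/-- SPEC of `δ₁`: for ANY level-constant lift `b` of a level-constant cocycle of `C` and ANY
`a` with `φ ∘ a = d₁₂ b`, `δ₁ [ψ ∘ b] = [a]`. -/
theorem δ₁_spec (h : SES φ ψ) (hL : L.IsCofinite) (hB : IsSmooth L B) (b : G → B)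
    (a : G × G → A) (hb : IsLC₁ L b) (hc : ψ ∘ b ∈ cocycles₁ C)
    (ha : ∀ p, φ (a p) = (d₁₂ B).hom b p) (h₁ : a ∈ cocycles₂ A) (h₂ : IsLC₂ L a) :
    δ₁ h hL hB (mk₁ (ψ ∘ b) hc (hb.comp ψ)) = mk₂ a h₁ h₂ := by
  have e : δ₁ h hL hB (mk₁ (ψ ∘ b) hc (hb.comp ψ)) =
      (H2π L A).toAddMonoidHom.comp (liftToZ2 h hL hB) ⟨b, hb, hc⟩ :=
    AddMonoidHom.liftOfRightInverse_comp_apply (liftToH1 L ψ) _ _ _ ⟨b, hb, hc⟩
  rw [e]
  have e' : pre φ ((d₁₂ B).hom b) = a := h.pre_eq ha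
  subst e'
  rfl

end delta₁

/-! ### The connecting map `δ₀ : C^G → H1 L A` -/

section delta₀

variable (ψ) in
/-- Lifts to `B` of `G`-invariant elements of `C`. -/
def lift₀Grp : AddSubgroup B where
  carrier := {b | ψ b ∈ C.ρ.invariants}
  add_mem' := by
    intro b b' h1 h2
    show ψ (b + b') ∈ C.ρ.invariants
    rw [map_add]; exact add_mem h1 h2
  zero_mem' := by
    show ψ 0 ∈ C.ρ.invariants
    rw [map_zero]; exact zero_mem _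
  neg_mem' := by
    intro b h1
    show ψ (-b) ∈ C.ρ.invariants
    rw [map_neg]; exact neg_mem h1

variable (ψ) in
/-- The invariant of `C` below a lift. -/
def lift₀ToInv : ↥(lift₀Grp ψ) →+ C.ρ.invariants where
  toFun b := ⟨ψ b.1, b.2⟩
  map_zero' := Subtype.ext (map_zero ψ)
  map_add' _ _ := Subtype.ext (map_add ψ _ _)

lemma SES.lift₀ToInv_surjective (h : SES φ ψ) : Function.Surjective (lift₀ToInv ψ) := by
  rintro ⟨c, hc⟩
  obtain ⟨b, rfl⟩ := h.surj c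
  exact ⟨⟨b, hc⟩, rfl⟩

lemma SES.ψ_d₀₁_lift (h : SES φ ψ) {b : B} (hb : ψ b ∈ C.ρ.invariants) (g : G) :
    ψ ((d₀₁ B).hom b g) = 0 := by
  have := congrFun (h.comp_d₀₁_ψ b) g
  rw [Function.comp_apply] at this
  rw [this, d₀₁_hom_apply, hb g, sub_self]

/-- The 1-cocycle of `A` attached to a lift: `φ⁻¹ ∘ d₀₁ b`. -/
def lift₀ToZ1 (h : SES φ ψ) (hB : IsSmooth L B) : ↥(lift₀Grp ψ) →+ ↥(Z1f L A) where
  toFun b := ⟨pre φ ((d₀₁ B).hom b.1),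
    h.mem_cocycles₁_of_lift (fun g => h.φ_pre (h.ψ_d₀₁_lift b.2) g),
    h.isLC₁_of_lift hB (fun g => h.φ_pre (h.ψ_d₀₁_lift b.2) g)⟩
  map_zero' := Subtype.ext (h.pre_eq (fun g => by
    show φ 0 = (d₀₁ B).hom 0 g
    rw [map_zero, map_zero]
    rfl))
  map_add' b b' := Subtype.ext (h.pre_eq (fun g => by
    show φ (pre φ ((d₀₁ B).hom b.1) g + pre φ ((d₀₁ B).hom b'.1) g) = _
    rw [map_add, h.φ_pre (h.ψ_d₀₁_lift b.2), h.φ_pre (h.ψ_d₀₁_lift b'.2)]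
    show _ = (d₀₁ B).hom (b.1 + b'.1) g
    rw [map_add]
    rfl))

lemma SES.lift₀ToInv_ker_le (h : SES φ ψ) (hB : IsSmooth L B) :
    (lift₀ToInv ψ).ker ≤ ((Z1toH1 L A).toAddMonoidHom.comp (lift₀ToZ1 h hB)).ker := by
  rintro ⟨b, hb⟩ h0
  rw [AddMonoidHom.mem_ker] at h0 ⊢
  have hb0 : ψ b = 0 := congrArg Subtype.val h0
  obtain ⟨a₀, rfl⟩ := (h.exact b).1 hb0
  refine (Z1toH1_eq_zero_iff L A _).2 ⟨a₀, ?_⟩
  symm
  refine h.pre_eq (fun g => ?_)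
  have e1 := congrFun (h.comp_d₀₁_φ a₀) g
  rw [Function.comp_apply] at e1
  exact e1

/-- The connecting map `δ₀ : C^G → H1 L A` of a short exact sequence with smooth middle
term. -/
def δ₀ (h : SES φ ψ) (hB : IsSmooth L B) : C.ρ.invariants →+ H1 L A :=
  (lift₀ToInv ψ).liftOfSurjective h.lift₀ToInv_surjective
    ⟨(Z1toH1 L A).toAddMonoidHom.comp (lift₀ToZ1 h hB), h.lift₀ToInv_ker_le hB⟩

/-- SPEC of `δ₀`: for ANY lift `b` of an invariant of `C` and ANY `a` with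
`φ (a g) = g • b - b`, `δ₀ (ψ b) = [a]`. -/
theorem δ₀_spec (h : SES φ ψ) (hB : IsSmooth L B) (b : B) (a : G → A)
    (hb : ψ b ∈ C.ρ.invariants) (ha : ∀ g, φ (a g) = B.ρ g b - b) (h₁ : a ∈ cocycles₁ A)
    (h₂ : IsLC₁ L a) : δ₀ h hB ⟨ψ b, hb⟩ = mk₁ a h₁ h₂ := by
  have e : δ₀ (L := L) h hB ⟨ψ b, hb⟩ =
      (Z1toH1 L A).toAddMonoidHom.comp (lift₀ToZ1 h hB) ⟨b, hb⟩ :=
    AddMonoidHom.liftOfRightInverse_comp_apply (lift₀ToInv ψ) _ _ _ ⟨b, hb⟩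
  rw [e]
  have e' : pre φ ((d₀₁ B).hom b) = a := h.pre_eq ha
  subst e'
  rfl

end delta₀

/-! ### Exactness, for any maps satisfying the SPECs -/

variable (L φ ψ) in
/-- `δ` is a connecting map in degree 0: it is computed by ANY lift. -/
def Spec₀ (δ : C.ρ.invariants →+ H1 L A) : Prop :=
  ∀ (b : B) (a : G → A) (hb : ψ b ∈ C.ρ.invariants), (∀ g, φ (a g) = B.ρ g b - b) →
    ∀ (h₁ : a ∈ cocycles₁ A) (h₂ : IsLC₁ L a), δ ⟨ψ b, hb⟩ = mk₁ a h₁ h₂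

variable (L φ ψ) in
/-- `δ` is a connecting map in degree 1: it is computed by ANY level-constant lift. -/
def Spec₁ (δ : H1 L C →+ H2 L A) : Prop :=
  ∀ (b : G → B) (a : G × G → A) (hb : IsLC₁ L b) (hc : ψ ∘ b ∈ cocycles₁ C),
    (∀ p, φ (a p) = (d₁₂ B).hom b p) → ∀ (h₁ : a ∈ cocycles₂ A) (h₂ : IsLC₂ L a),
      δ (mk₁ (ψ ∘ b) hc (hb.comp ψ)) = mk₂ a h₁ h₂

theorem spec₀_δ₀ (h : SES φ ψ) (hB : IsSmooth L B) : Spec₀ L φ ψ (δ₀ h hB) :=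
  fun b a hb ha h₁ h₂ => δ₀_spec h hB b a hb ha h₁ h₂

theorem spec₁_δ₁ (h : SES φ ψ) (hL : L.IsCofinite) (hB : IsSmooth L B) :
    Spec₁ L φ ψ (δ₁ h hL hB) :=
  fun b a hb hc ha h₁ h₂ => δ₁_spec h hL hB b a hb hc ha h₁ h₂

/-- `∃ δ₀` with the SPEC. -/
theorem exists_spec₀ (h : SES φ ψ) (hB : IsSmooth L B) :
    ∃ δ : C.ρ.invariants →+ H1 L A, Spec₀ L φ ψ δ := ⟨_, spec₀_δ₀ h hB⟩

/-- `∃ δ₁` with the SPEC. -/
theorem exists_spec₁ (h : SES φ ψ) (hL : L.IsCofinite) (hB : IsSmooth L B) :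
    ∃ δ : H1 L C →+ H2 L A, Spec₁ L φ ψ δ := ⟨_, spec₁_δ₁ h hL hB⟩

section exactness

variable (h : SES φ ψ)

/-- The map `H1 L A → H1 L B` induced by `φ`. -/
abbrev SES.H1φ : H1 L A →+ H1 L B :=
  H1add (MonoidHom.id G) φ h.φ_comm (LevelSys.Compat.id L)

/-- The map `H1 L B → H1 L C` induced by `ψ`. -/
abbrev SES.H1ψ : H1 L B →+ H1 L C :=
  H1add (MonoidHom.id G) ψ h.ψ_comm (LevelSys.Compat.id L)

/-- The map `H2 L A → H2 L B` induced by `φ`. -/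
abbrev SES.H2φ : H2 L A →+ H2 L B :=
  H2add (MonoidHom.id G) φ h.φ_comm (LevelSys.Compat.id L)

include h

lemma SES.ψ_mem_invariants {b : B} (hb : b ∈ B.ρ.invariants) : ψ b ∈ C.ρ.invariants :=
  fun g => by rw [← h.ψ_comm, hb g]

/-- Every invariant of `C` and its image under a connecting map are computed by a lift. -/
lemma exists_rep₀ (hB : IsSmooth L B) {δ : C.ρ.invariants →+ H1 L A}
    (hδ : Spec₀ L φ ψ δ) (c : C.ρ.invariants) :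
    ∃ (b : B) (a : G → A) (h₁ : a ∈ cocycles₁ A) (h₂ : IsLC₁ L a),
      ψ b = c ∧ (∀ g, φ (a g) = (d₀₁ B).hom b g) ∧ δ c = mk₁ a h₁ h₂ := by
  obtain ⟨c, hcinv⟩ := c
  obtain ⟨b₀, rfl⟩ := h.surj c
  obtain ⟨a, ha⟩ := h.exists_pre ((d₀₁ B).hom b₀) (h.ψ_d₀₁_lift hcinv)
  exact ⟨b₀, a, h.mem_cocycles₁_of_lift ha, h.isLC₁_of_lift hB ha, rfl, ha,
    hδ b₀ a hcinv (fun g => by rw [ha, d₀₁_hom_apply]) _ _⟩

/-- Every class of `H1 L C` and its image under a connecting map are computed by a lift. -/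
lemma exists_rep₁ (hL : L.IsCofinite) (hB : IsSmooth L B) {δ : H1 L C →+ H2 L A}
    (hδ : Spec₁ L φ ψ δ) (x : H1 L C) :
    ∃ (b : G → B) (a : G × G → A) (hb : IsLC₁ L b) (hc : ψ ∘ b ∈ cocycles₁ C)
      (h₁ : a ∈ cocycles₂ A) (h₂ : IsLC₂ L a),
      x = mk₁ (ψ ∘ b) hc (hb.comp ψ) ∧ (∀ p, φ (a p) = (d₁₂ B).hom b p) ∧
        δ x = mk₂ a h₁ h₂ := by
  obtain ⟨⟨b, hb, hc⟩, rfl⟩ := h.liftToH1_surjective (L := L) x
  obtain ⟨a, ha⟩ := h.exists_pre ((d₁₂ B).hom b) (h.ψ_d₁₂_lift hc)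
  exact ⟨b, a, hb, hc, h.mem_cocycles₂_of_lift ha, h.isLC₂_of_lift hL hB hb ha, rfl, ha,
    hδ b a hb hc ha _ _⟩

/-! #### Exactness at `C^G` -/

/-- `δ₀` kills the image of `B^G`. -/
theorem δ₀_ψ {δ : C.ρ.invariants →+ H1 L A} (hδ : Spec₀ L φ ψ δ) (b : B)
    (hb : b ∈ B.ρ.invariants) : δ ⟨ψ b, h.ψ_mem_invariants hb⟩ = 0 := by
  rw [hδ b 0 (h.ψ_mem_invariants hb) (fun g => by rw [hb g, sub_self]; exact map_zero φ)
    (zero_mem _) (isLC₁_const L 0)]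
  exact mk₁_zero _ _

/-- The kernel of `δ₀` is the image of `B^G`. -/
theorem exists_invariant_of_δ₀_eq_zero (hB : IsSmooth L B)
    {δ : C.ρ.invariants →+ H1 L A} (hδ : Spec₀ L φ ψ δ) (c : C.ρ.invariants)
    (hc : δ c = 0) : ∃ b : B, b ∈ B.ρ.invariants ∧ ψ b = c := by
  obtain ⟨b₀, a, h₁, h₂, hbc, ha, hδc⟩ := exists_rep₀ h hB hδ c
  rw [hδc] at hc
  obtain ⟨a₀, ha₀⟩ := (mk₁_eq_zero_iff h₁ h₂).1 hc
  refine ⟨b₀ - φ a₀, fun g => ?_, by rw [map_sub, h.ψ_φ, sub_zero, hbc]⟩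
  have e1 := ha g
  rw [← ha₀, d₀₁_hom_apply, d₀₁_hom_apply, map_sub, h.φ_comm] at e1
  rw [map_sub, sub_eq_sub_iff_sub_eq_sub]
  exact e1.symm

/-! #### Exactness at `H1 L A` -/

/-- `H1 L A → H1 L B` kills the image of `δ₀`. -/
theorem H1φ_δ₀ (hB : IsSmooth L B) {δ : C.ρ.invariants →+ H1 L A}
    (hδ : Spec₀ L φ ψ δ) (c : C.ρ.invariants) : h.H1φ (δ c) = 0 := by
  obtain ⟨b₀, a, h₁, h₂, -, ha, hδc⟩ := exists_rep₀ h hB hδ c
  rw [hδc, H1add_mk₁]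
  exact (mk₁_eq_zero_iff _ _).2 ⟨b₀, (funext ha).symm⟩

/-- The kernel of `H1 L A → H1 L B` is the image of `δ₀`. -/
theorem exists_δ₀_eq {δ : C.ρ.invariants →+ H1 L A} (hδ : Spec₀ L φ ψ δ)
    (z : H1 L A) (hz : h.H1φ z = 0) : ∃ c, δ c = z := by
  obtain ⟨a, h₁, h₂, rfl⟩ := exists_mk₁ z
  rw [H1add_mk₁] at hz
  obtain ⟨b₀, hb₀⟩ := (mk₁_eq_zero_iff _ _).1 hz
  have ha : ∀ g, φ (a g) = B.ρ g b₀ - b₀ := fun g => by
    rw [← d₀₁_hom_apply]; exact (congrFun hb₀ g).symm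
  have hinv : ψ b₀ ∈ C.ρ.invariants := fun g => by
    have e : B.ρ g b₀ = b₀ + φ (a g) := by rw [ha g]; abel
    rw [← h.ψ_comm, e, map_add, h.ψ_φ, add_zero]
  exact ⟨⟨ψ b₀, hinv⟩, hδ b₀ a hinv ha h₁ h₂⟩

/-! #### Exactness at `H1 L B` -/

/-- `H1 L A → H1 L B → H1 L C` is zero. -/
theorem H1ψ_H1φ (z : H1 L A) : h.H1ψ (h.H1φ z) = 0 := by
  obtain ⟨a, h₁, h₂, rfl⟩ := exists_mk₁ z
  rw [H1add_mk₁, H1add_mk₁]
  refine (mk₁_eq_zero_iff _ _).2 ⟨0, ?_⟩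
  rw [map_zero]
  funext g
  exact (h.ψ_φ (a g)).symm

/-- The kernel of `H1 L B → H1 L C` is the image of `H1 L A`. -/
theorem exists_H1φ_eq (hB : IsSmooth L B) (y : H1 L B) (hy : h.H1ψ y = 0) :
    ∃ z, h.H1φ z = y := by
  obtain ⟨b, h₁, h₂, rfl⟩ := exists_mk₁ y
  rw [H1add_mk₁] at hy
  obtain ⟨c₀, hc₀⟩ := (mk₁_eq_zero_iff _ _).1 hy
  obtain ⟨b₀, rfl⟩ := h.surj c₀
  have hkill : ∀ g, ψ ((b - (d₀₁ B).hom b₀) g) = 0 := by
    intro g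
    have e1 := congrFun (h.comp_d₀₁_ψ b₀) g
    have e2 := congrFun hc₀ g
    simp only [Function.comp_apply, MonoidHom.id_apply] at e1 e2
    rw [Pi.sub_apply, map_sub, e1, e2, sub_self]
  obtain ⟨a, ha⟩ := h.exists_pre _ hkill
  have hφa : φ ∘ a = b - (d₀₁ B).hom b₀ := funext ha
  have ha₁ : a ∈ cocycles₁ A := h.mem_cocycles₁_of_comp (by
    rw [hφa]; exact sub_mem h₁ (d₀₁_apply_mem_cocycles₁ b₀))
  have ha₂ : IsLC₁ L a := isLC₁_of_comp h.inj (by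
    rw [hφa]; exact isLC₁_sub h₂ (isLC₁_d₀₁ hB b₀))
  refine ⟨mk₁ a ha₁ ha₂, ?_⟩
  rw [H1add_mk₁]
  refine (mk₁_eq_mk₁_iff _ _ _ _).2 ⟨-b₀, ?_⟩
  rw [map_neg]
  show -(d₀₁ B).hom b₀ = φ ∘ a - b
  rw [hφa]
  abel

/-! #### Exactness at `H1 L C` -/

/-- `δ₁` kills the image of `H1 L B`. -/
theorem δ₁_H1ψ {δ : H1 L C →+ H2 L A} (hδ : Spec₁ L φ ψ δ) (y : H1 L B) :
    δ (h.H1ψ y) = 0 := by
  obtain ⟨b, h₁, h₂, rfl⟩ := exists_mk₁ y
  rw [H1add_mk₁]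
  have e := hδ b 0 h₂ (addPP_mem_cocycles₁ (MonoidHom.id G) ψ h.ψ_comm h₁)
    (fun p => by
      rw [show (d₁₂ B).hom b = 0 from LinearMap.mem_ker.1 h₁]; exact map_zero φ)
    (zero_mem _) (isLC₂_const L 0)
  exact e.trans (mk₂_zero _ _)

/-- The kernel of `δ₁` is the image of `H1 L B`. -/
theorem exists_H1ψ_eq (hL : L.IsCofinite) (hB : IsSmooth L B) {δ : H1 L C →+ H2 L A}
    (hδ : Spec₁ L φ ψ δ) (x : H1 L C) (hx : δ x = 0) : ∃ y, h.H1ψ y = x := by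
  obtain ⟨b, a, hb, hc, h₁, h₂, rfl, ha, hδx⟩ := exists_rep₁ h hL hB hδ x
  rw [hδx] at hx
  obtain ⟨t, ht, hta⟩ := (mk₂_eq_zero_iff h₁ h₂).1 hx
  have hb' : b - φ ∘ t ∈ cocycles₁ B := by
    show b - φ ∘ t ∈ LinearMap.ker (d₁₂ B).hom
    rw [LinearMap.mem_ker, map_sub, ← h.comp_d₁₂_φ t, hta, sub_eq_zero]
    exact (funext ha).symm
  refine ⟨mk₁ (b - φ ∘ t) hb' (isLC₁_sub hb (ht.comp φ)), ?_⟩
  rw [H1add_mk₁]
  refine mk₁_congr ?_ _ _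
  funext g
  simp only [MonoidHom.id_apply, Pi.sub_apply, Function.comp_apply, map_sub, h.ψ_φ,
    sub_zero]

/-! #### Exactness at `H2 L A` -/

/-- `H2 L A → H2 L B` kills the image of `δ₁`. -/
theorem H2φ_δ₁ (hL : L.IsCofinite) (hB : IsSmooth L B) {δ : H1 L C →+ H2 L A}
    (hδ : Spec₁ L φ ψ δ) (x : H1 L C) : h.H2φ (δ x) = 0 := by
  obtain ⟨b, a, hb, hc, h₁, h₂, rfl, ha, hδx⟩ := exists_rep₁ h hL hB hδ x
  rw [hδx, H2add_mk₂]
  exact (mk₂_eq_zero_iff _ _).2 ⟨b, hb, (funext ha).symm⟩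

/-- The kernel of `H2 L A → H2 L B` is the image of `δ₁`. -/
theorem exists_δ₁_eq {δ : H1 L C →+ H2 L A} (hδ : Spec₁ L φ ψ δ) (z : H2 L A)
    (hz : h.H2φ z = 0) : ∃ x, δ x = z := by
  obtain ⟨a, h₁, h₂, rfl⟩ := exists_mk₂ z
  rw [H2add_mk₂] at hz
  obtain ⟨b, hb, hba⟩ := (mk₂_eq_zero_iff _ _).1 hz
  have hc : ψ ∘ b ∈ cocycles₁ C := by
    show ψ ∘ b ∈ LinearMap.ker (d₁₂ C).hom
    rw [LinearMap.mem_ker, ← h.comp_d₁₂_ψ b, hba]
    funext p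
    exact h.ψ_φ _
  exact ⟨mk₁ (ψ ∘ b) hc (hb.comp ψ), hδ b a hb hc (fun p => (congrFun hba p).symm) h₁ h₂⟩

end exactness

/-! ### Bridge to the specifications `IsSES`, `IsDelta₀`, `IsDelta₁` of `Level/Defs.lean` -/

section bridge

lemma SES.of (h : IsSES A B C φ ψ) : SES φ ψ :=
  ⟨h.equivar_φ, h.equivar_ψ, h.injective, h.surjective, h.exact⟩

/-- `IsDelta₀` in function form: for ANY lift `b` and ANY `a` with `φ (a g) = g • b - b`. -/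
lemma spec₀_of_isDelta₀ {δ : C.ρ.invariants →+ H1 L A} (hδ : IsDelta₀ L φ ψ δ) :
    Spec₀ L φ ψ δ :=
  fun b a hb ha h₁ _ => Subtype.ext (hδ ⟨ψ b, hb⟩ b ⟨a, h₁⟩ rfl ha)

lemma isDelta₀_of_spec₀ (h : SES φ ψ) (hB : IsSmooth L B) {δ : C.ρ.invariants →+ H1 L A}
    (hδ : Spec₀ L φ ψ δ) : IsDelta₀ L φ ψ δ := by
  intro c b a hbc ha
  obtain ⟨c, hc⟩ := c
  have hbc' : ψ b = c := hbc
  subst hbc'
  have h₂ : IsLC₁ L (a : G → A) :=
    h.isLC₁_of_lift hB (b := b) (fun g => by rw [ha, d₀₁_hom_apply])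
  exact congrArg Subtype.val (hδ b a hc ha a.2 h₂)

/-- `IsDelta₁` in function form: for ANY level-constant lift `b` and ANY `a` with
`φ ∘ a = d₁₂ b`. -/
lemma spec₁_of_isDelta₁ {δ : H1 L C →+ H2 L A} (hδ : IsDelta₁ L φ ψ δ) : Spec₁ L φ ψ δ :=
  fun b a hb hc ha h₁ h₂ =>
    hδ (mk₁ (ψ ∘ b) hc (hb.comp ψ)) ⟨ψ ∘ b, hc⟩ b ⟨a, h₁, h₂⟩ rfl hb (fun _ => rfl)
      (fun g g' => by rw [ha, d₁₂_hom_apply])

lemma isDelta₁_of_spec₁ {δ : H1 L C →+ H2 L A} (hδ : Spec₁ L φ ψ δ) : IsDelta₁ L φ ψ δ := by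
  intro x c b a hcx hb hψ ha
  have e : ψ ∘ b = (c : G → C) := funext hψ
  have hc : ψ ∘ b ∈ cocycles₁ C := by rw [e]; exact c.2
  have hcc : (⟨ψ ∘ b, hc⟩ : cocycles₁ C) = c := Subtype.ext e
  have hx : x = mk₁ (ψ ∘ b) hc (hb.comp ψ) := by
    apply Subtype.ext
    rw [← hcx, ← hcc]
    rfl
  rw [hx]
  exact hδ b a hb hc (fun p => by rw [ha p.1 p.2, d₁₂_hom_apply]) a.2.1 a.2.2

end bridge

/-! ### The statements of `Level/Plan.lean` (LES part), verbatim -/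

section plan

/-- = `Plan.CochainLevel`. -/
theorem cochainLevel :
    ∀ (G : Type) [Group G] (L : LevelSys G), L.IsCofinite →
    ∀ (k : Type) [CommRing k] (A : Rep.{0} k G), IsSmooth L A →
    ∀ b : G → A, IsLC₁ L b →
      ∃ i, L.P i ∧ (L.N i).Normal ∧ (L.N i).FiniteIndex ∧
        (∀ g s, s ∈ L.N i → b (g * s) = b g) ∧ ∀ g, ∀ s ∈ L.N i, A.ρ s (b g) = b g :=
  fun _ _ _ hL _ _ _ hA _ hb => exists_uniform hL hA hb

/-- = `Plan.ExistsDelta₀`. -/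
theorem existsDelta₀ :
    ∀ (G : Type) [Group G] (L : LevelSys G)
      (k₁ k₂ k₃ : Type) [CommRing k₁] [CommRing k₂] [CommRing k₃]
      (A : Rep.{0} k₁ G) (B : Rep.{0} k₂ G) (C : Rep.{0} k₃ G) (φ : A →+ B) (ψ : B →+ C),
      IsSES A B C φ ψ → IsSmooth L B →
      ∃ δ : C.ρ.invariants →+ H1 L A, IsDelta₀ L φ ψ δ :=
  fun _ _ _ _ _ _ _ _ _ _ _ _ _ _ h hB =>
    ⟨δ₀ (SES.of h) hB, isDelta₀_of_spec₀ (SES.of h) hB (spec₀_δ₀ (SES.of h) hB)⟩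

/-- = `Plan.ExistsDelta₁`. -/
theorem existsDelta₁ :
    ∀ (G : Type) [Group G] (L : LevelSys G), L.IsCofinite →
    ∀ (k₁ k₂ k₃ : Type) [CommRing k₁] [CommRing k₂] [CommRing k₃]
      (A : Rep.{0} k₁ G) (B : Rep.{0} k₂ G) (C : Rep.{0} k₃ G) (φ : A →+ B) (ψ : B →+ C),
      IsSES A B C φ ψ → IsSmooth L B →
      ∃ δ : H1 L C →+ H2 L A, IsDelta₁ L φ ψ δ :=
  fun _ _ _ hL _ _ _ _ _ _ _ _ _ _ _ h hB =>
    ⟨δ₁ (SES.of h) hL hB, isDelta₁_of_spec₁ (spec₁_δ₁ (SES.of h) hL hB)⟩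

/-- = `Plan.ExactH0C`. -/
theorem exactH0C :
    ∀ (G : Type) [Group G] (L : LevelSys G), L.IsCofinite →
    ∀ (k₁ k₂ k₃ : Type) [CommRing k₁] [CommRing k₂] [CommRing k₃]
      (A : Rep.{0} k₁ G) (B : Rep.{0} k₂ G) (C : Rep.{0} k₃ G) (φ : A →+ B) (ψ : B →+ C),
      IsSES A B C φ ψ → IsSmooth L B →
    ∀ δ : C.ρ.invariants →+ H1 L A, IsDelta₀ L φ ψ δ →
    ∀ c : C.ρ.invariants, δ c = 0 ↔ ∃ b : B.ρ.invariants, ψ b = c := by
  intro G _ L _ k₁ k₂ k₃ _ _ _ A B C φ ψ h hB δ hδ c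
  constructor
  · intro hc
    obtain ⟨b, hb, hbc⟩ :=
      exists_invariant_of_δ₀_eq_zero (SES.of h) hB (spec₀_of_isDelta₀ hδ) c hc
    exact ⟨⟨b, hb⟩, hbc⟩
  · rintro ⟨⟨b, hb⟩, hbc⟩
    have e : c = ⟨ψ b, (SES.of h).ψ_mem_invariants hb⟩ := Subtype.ext hbc.symm
    rw [e]
    exact δ₀_ψ (SES.of h) (spec₀_of_isDelta₀ hδ) b hb

/-- = `Plan.ExactH1A`. -/
theorem exactH1A :
    ∀ (G : Type) [Group G] (L : LevelSys G), L.IsCofinite →
    ∀ (k₁ k₂ k₃ : Type) [CommRing k₁] [CommRing k₂] [CommRing k₃]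
      (A : Rep.{0} k₁ G) (B : Rep.{0} k₂ G) (C : Rep.{0} k₃ G) (φ : A →+ B) (ψ : B →+ C)
      (h : IsSES A B C φ ψ), IsSmooth L B →
    ∀ δ : C.ρ.invariants →+ H1 L A, IsDelta₀ L φ ψ δ →
    ∀ x : H1 L A,
      H1add (MonoidHom.id G) φ h.equivar_φ (LevelSys.Compat.id L) x = 0 ↔ ∃ c, δ c = x := by
  intro G _ L _ k₁ k₂ k₃ _ _ _ A B C φ ψ h hB δ hδ x
  constructor
  · intro hx
    exact exists_δ₀_eq (SES.of h) (spec₀_of_isDelta₀ hδ) x hx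
  · rintro ⟨c, rfl⟩
    exact H1φ_δ₀ (SES.of h) hB (spec₀_of_isDelta₀ hδ) c

/-- = `Plan.ExactH1B`. -/
theorem exactH1B :
    ∀ (G : Type) [Group G] (L : LevelSys G), L.IsCofinite →
    ∀ (k₁ k₂ k₃ : Type) [CommRing k₁] [CommRing k₂] [CommRing k₃]
      (A : Rep.{0} k₁ G) (B : Rep.{0} k₂ G) (C : Rep.{0} k₃ G) (φ : A →+ B) (ψ : B →+ C)
      (h : IsSES A B C φ ψ), IsSmooth L B →
    ∀ y : H1 L B,
      H1add (MonoidHom.id G) ψ h.equivar_ψ (LevelSys.Compat.id L) y = 0 ↔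
        ∃ x : H1 L A, H1add (MonoidHom.id G) φ h.equivar_φ (LevelSys.Compat.id L) x = y := by
  intro G _ L _ k₁ k₂ k₃ _ _ _ A B C φ ψ h hB y
  constructor
  · intro hy
    exact exists_H1φ_eq (SES.of h) hB y hy
  · rintro ⟨x, rfl⟩
    exact H1ψ_H1φ (SES.of h) x

/-- = `Plan.ExactH1C`. -/
theorem exactH1C :
    ∀ (G : Type) [Group G] (L : LevelSys G), L.IsCofinite →
    ∀ (k₁ k₂ k₃ : Type) [CommRing k₁] [CommRing k₂] [CommRing k₃]
      (A : Rep.{0} k₁ G) (B : Rep.{0} k₂ G) (C : Rep.{0} k₃ G) (φ : A →+ B) (ψ : B →+ C)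
      (h : IsSES A B C φ ψ), IsSmooth L B →
    ∀ δ : H1 L C →+ H2 L A, IsDelta₁ L φ ψ δ →
    ∀ z : H1 L C,
      δ z = 0 ↔
        ∃ y : H1 L B, H1add (MonoidHom.id G) ψ h.equivar_ψ (LevelSys.Compat.id L) y = z := by
  intro G _ L hL k₁ k₂ k₃ _ _ _ A B C φ ψ h hB δ hδ z
  constructor
  · intro hz
    exact exists_H1ψ_eq (SES.of h) hL hB (spec₁_of_isDelta₁ hδ) z hz
  · rintro ⟨y, rfl⟩
    exact δ₁_H1ψ (SES.of h) (spec₁_of_isDelta₁ hδ) y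

/-- = `Plan.ExactH2A`. -/
theorem exactH2A :
    ∀ (G : Type) [Group G] (L : LevelSys G), L.IsCofinite →
    ∀ (k₁ k₂ k₃ : Type) [CommRing k₁] [CommRing k₂] [CommRing k₃]
      (A : Rep.{0} k₁ G) (B : Rep.{0} k₂ G) (C : Rep.{0} k₃ G) (φ : A →+ B) (ψ : B →+ C)
      (h : IsSES A B C φ ψ), IsSmooth L B →
    ∀ δ : H1 L C →+ H2 L A, IsDelta₁ L φ ψ δ →
    ∀ x : H2 L A,
      H2add (MonoidHom.id G) φ h.equivar_φ (LevelSys.Compat.id L) x = 0 ↔ ∃ z, δ z = x := by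
  intro G _ L hL k₁ k₂ k₃ _ _ _ A B C φ ψ h hB δ hδ x
  constructor
  · intro hx
    exact exists_δ₁_eq (SES.of h) (spec₁_of_isDelta₁ hδ) x hx
  · rintro ⟨z, rfl⟩
    exact H2φ_δ₁ (SES.of h) hL hB (spec₁_of_isDelta₁ hδ) z

end plan

end Fermat.Agent.CFT.Level.LES

end
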