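import Fermat.Agent.CFT.Level.Plan

/-!
# P3 / CFT, layer L1 (Level): naturality of the connecting homomorphisms

`natDelta₀ : Plan.NatDelta₀`, `natDelta₁ : Plan.NatDelta₁` (and `natDelta₀_holds`,
`natDelta₁_holds`, the same statements with the Plan bodies unfolded).  Both are consequences of the specifications
`IsDelta₀`, `IsDelta₁` alone: one builds a lift for the source sequence and transports it along
`(f, α, β, γ)` to a lift for the target sequence.

Also exported: `exists_level_fixing`, `finite_range_of_isLC₁`, `exists_level_of_isLC₁` (a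
level-constant cochain of a smooth module over a cofinite level system has a level which fixes
all its values and under which it is right-invariant, inside a normal level), and the lifts
`exists_lift₀`, `exists_lift₁` of the two connecting constructions.
-/

set_option autoImplicit false

open CategoryTheory groupCohomology

noncomputable section

namespace Fermat.Agent.CFT.Level.NatDelta

open Fermat.Agent.CFT.Level

section Levels

variable {G : Type} [Group G] (L : LevelSys G) {k : Type} [CommRing k] (A : Rep.{0} k G)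

/-- Finitely many elements of a smooth module are fixed by a common level. -/
theorem exists_level_fixing (hA : IsSmooth L A) (T : Set A) (hT : T.Finite) :
    ∃ l, L.P l ∧ ∀ a ∈ T, ∀ s ∈ L.N l, A.ρ s a = a := by
  induction T, hT using Set.Finite.induction_on with
  | empty =>
    obtain ⟨i, hi⟩ := L.nonempty
    exact ⟨i, hi, fun a ha => absurd ha (Set.notMem_empty a)⟩
  | @insert a T _ _ ih =>
    obtain ⟨l, hl, hlT⟩ := ih
    obtain ⟨i, hi, hia⟩ := hA a
    obtain ⟨m, hm, hle⟩ := L.directed l i hl hi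
    refine ⟨m, hm, fun x hx s hs => ?_⟩
    rcases Set.mem_insert_iff.1 hx with rfl | hx
    · exact hia s (hle hs).2
    · exact hlT x hx s (hle hs).1

/-- A cochain which is right-invariant under a subgroup of finite index has finitely many
values. -/
theorem finite_range_of_invariant {X : Type*} (N : Subgroup G) [N.FiniteIndex] (b : G → X)
    (hb : ∀ g s, s ∈ N → b (g * s) = b g) : (Set.range b).Finite := by
  have hsub : Set.range b ⊆ Set.range (fun q : G ⧸ N => b q.out) := by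
    rintro _ ⟨g, rfl⟩
    obtain ⟨s, hs⟩ := QuotientGroup.mk_out_eq_mul N g
    exact ⟨(g : G ⧸ N), by simp only [hs, hb g s s.2]⟩
  exact (Set.finite_range _).subset hsub

/-- **Level of a level-constant cochain**: for a cofinite level system and a smooth module, a
level-constant `1`-cochain `b` has a NORMAL level `N j` under which it is right-invariant and
a level `N l ≤ N j` fixing all its values. -/
theorem exists_level_of_isLC₁ (hL : L.IsCofinite) (hA : IsSmooth L A) (b : G → A)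
    (hb : IsLC₁ L b) :
    ∃ j l, L.P j ∧ L.P l ∧ (L.N j).Normal ∧ L.N l ≤ L.N j ∧
      (∀ g s, s ∈ L.N j → b (g * s) = b g) ∧ ∀ g, ∀ s ∈ L.N l, A.ρ s (b g) = b g := by
  obtain ⟨i, hi, hbi⟩ := hb
  obtain ⟨j, hj, hji, hjn, hjf⟩ := hL i hi
  have hbj : ∀ g s, s ∈ L.N j → b (g * s) = b g := fun g s hs => hbi g s (hji hs)
  obtain ⟨m, hm, hmfix⟩ := exists_level_fixing L A hA (Set.range b)
    (finite_range_of_invariant (L.N j) b hbj)
  obtain ⟨l, hl, hle⟩ := L.directed j m hj hm
  exact ⟨j, l, hj, hl, hjn, fun x hx => (hle hx).1, hbj,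
    fun g s hs => hmfix (b g) ⟨g, rfl⟩ s (hle hs).2⟩

end Levels

section Lifts

variable {G : Type} [Group G] (L : LevelSys G) {k₁ k₂ k₃ : Type} [CommRing k₁] [CommRing k₂]
  [CommRing k₃] {A : Rep.{0} k₁ G} {B : Rep.{0} k₂ G} {C : Rep.{0} k₃ G}
  {φ : A →+ B} {ψ : B →+ C}

/-- Lifting data for `δ⁰`: every invariant `c` of `C` has a preimage `b` and a cocycle `a` of
`A` with `φ ∘ a = d⁰ b`. -/
theorem exists_lift₀ (h : IsSES A B C φ ψ) (c : C.ρ.invariants) :
    ∃ (b : B) (a : cocycles₁ A), ψ b = c ∧ ∀ g, φ (a g) = B.ρ g b - b := by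
  obtain ⟨b, hb⟩ := h.surjective (c : C)
  have key : ∀ g : G, ∃ a : A, φ a = B.ρ g b - b := by
    intro g
    apply (h.exact _).1
    have e := h.equivar_ψ g b
    simp only [MonoidHom.id_apply] at e
    rw [map_sub, e, hb, c.2 g, sub_self]
  choose a ha using key
  have hcoc : a ∈ cocycles₁ A := by
    rw [mem_cocycles₁_iff]
    intro g g'
    apply h.injective
    have e := h.equivar_φ g (a g')
    simp only [MonoidHom.id_apply] at e
    rw [map_add, ha, e, ha, ha, map_mul, map_sub]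
    simp only [Module.End.mul_apply]
    abel
  exact ⟨b, ⟨a, hcoc⟩, hb, ha⟩

/-- Lifting data for `δ¹`: every level-constant cocycle `c` of `C` has a level-constant lift `b`
and a level-constant `2`-cocycle `a` of `A` with `φ ∘ a = d¹ b`. -/
theorem exists_lift₁ (hL : L.IsCofinite) (h : IsSES A B C φ ψ) (hB : IsSmooth L B)
    (c : cocycles₁ C) (hc : IsLC₁ L c) :
    ∃ (b : G → B) (a : ↥(Z2 L A)), IsLC₁ L b ∧ (∀ g, ψ (b g) = c g) ∧
      ∀ g g', φ ((a : G × G → A) (g, g')) = B.ρ g (b g') - b (g * g') + b g := by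
  let b : G → B := fun g => Function.surjInv h.surjective (c g)
  have hbψ : ∀ g, ψ (b g) = c g := fun g => Function.surjInv_eq h.surjective (c g)
  have hbLC : IsLC₁ L b := hc.comp (Function.surjInv h.surjective)
  obtain ⟨j, l, hj, hl, hjn, hlj, hbj, hfix⟩ := exists_level_of_isLC₁ L B hL hB b hbLC
  have key : ∀ p : G × G, ∃ a : A, φ a = B.ρ p.1 (b p.2) - b (p.1 * p.2) + b p.1 := by
    intro p
    apply (h.exact _).1
    have e := h.equivar_ψ p.1 (b p.2)
    simp only [MonoidHom.id_apply] at e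
    rw [map_add, map_sub, e, hbψ, hbψ, hbψ, (mem_cocycles₁_iff c).1 c.2 p.1 p.2]
    abel
  choose a ha using key
  have hcoc : a ∈ cocycles₂ A := by
    rw [mem_cocycles₂_iff]
    intro g g' g''
    apply h.injective
    have e := h.equivar_φ g (a (g', g''))
    simp only [MonoidHom.id_apply] at e
    rw [map_add, map_add, ha, ha, e, ha, ha]
    simp only [map_mul, Module.End.mul_apply, map_add, map_sub, mul_assoc]
    abel
  have hLC : IsLC₂ L a := by
    refine ⟨l, hl, fun g g' s s' hs hs' => ?_⟩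
    apply h.injective
    rw [ha, ha]
    have e1 : b (g' * s') = b g' := hbj g' s' (hlj hs')
    have e2 : b (g * s) = b g := hbj g s (hlj hs)
    have e3 : b (g * s * (g' * s')) = b (g * g') := by
      have : g * s * (g' * s') = g * g' * (g'⁻¹ * s * g' * s') := by group
      rw [this]
      refine hbj _ _ (mul_mem ?_ (hlj hs'))
      have := hjn.conj_mem s (hlj hs) g'⁻¹
      simpa using this
    simp only [e1, e2, e3, map_mul, Module.End.mul_apply, hfix g' s hs]
  exact ⟨b, ⟨a, hcoc, hLC⟩, hbLC, hbψ, fun g g' => ha (g, g')⟩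

end Lifts

/-- **[NatDelta₀]** (body of `Level.Plan.NatDelta₀`, verbatim). -/
theorem natDelta₀_holds :
    ∀ (G G' : Type) [Group G] [Group G'] (L : LevelSys G) (L' : LevelSys G') (f : G' →* G)
      (hf : L'.Compat L f)
      (k₁ k₂ k₃ k₁' k₂' k₃' : Type) [CommRing k₁] [CommRing k₂] [CommRing k₃]
      [CommRing k₁'] [CommRing k₂'] [CommRing k₃']
      (A : Rep.{0} k₁ G) (B : Rep.{0} k₂ G) (C : Rep.{0} k₃ G) (φ : A →+ B) (ψ : B →+ C)
      (A' : Rep.{0} k₁' G') (B' : Rep.{0} k₂' G') (C' : Rep.{0} k₃' G')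
      (φ' : A' →+ B') (ψ' : B' →+ C'),
      IsSES A B C φ ψ → IsSES A' B' C' φ' ψ' →
    ∀ (α : A →+ A') (β : B →+ B') (γ : C →+ C') (hα : Equivar f A A' α)
      (_ : Equivar f B B' β) (hγ : Equivar f C C' γ),
      (∀ a, β (φ a) = φ' (α a)) → (∀ b, γ (ψ b) = ψ' (β b)) →
    ∀ (δ : C.ρ.invariants →+ H1 L A) (δ' : C'.ρ.invariants →+ H1 L' A'),
      IsDelta₀ L φ ψ δ → IsDelta₀ L' φ' ψ' δ' →
    ∀ c : C.ρ.invariants, δ' (H0add f γ hγ c) = H1add f α hα hf (δ c) := by
  intro G G' _ _ L L' f hf k₁ k₂ k₃ k₁' k₂' k₃' _ _ _ _ _ _ A B C φ ψ A' B' C' φ' ψ' h _ α β γ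
    hα hβ hγ h1 h2 δ δ' hδ hδ' c
  obtain ⟨b, a, hb, ha⟩ := exists_lift₀ h c
  have e1 := hδ c b a hb ha
  have e2 := hδ' (H0add f γ hγ c) (β b) (Z1add f α hα a)
    (by rw [coe_H0add, ← h2, hb])
    (by
      intro g
      rw [Z1add_apply, ← h1, ha, map_sub, hβ])
  apply Subtype.ext
  rw [e2, coe_H1add, e1, H1addFull_π]

/-- **[NatDelta₁]** (body of `Level.Plan.NatDelta₁`, verbatim). -/
theorem natDelta₁_holds :
    ∀ (G G' : Type) [Group G] [Group G'] (L : LevelSys G) (L' : LevelSys G') (f : G' →* G)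
      (hf : L'.Compat L f), L.IsCofinite →
    ∀ (k₁ k₂ k₃ k₁' k₂' k₃' : Type) [CommRing k₁] [CommRing k₂] [CommRing k₃]
      [CommRing k₁'] [CommRing k₂'] [CommRing k₃']
      (A : Rep.{0} k₁ G) (B : Rep.{0} k₂ G) (C : Rep.{0} k₃ G) (φ : A →+ B) (ψ : B →+ C)
      (A' : Rep.{0} k₁' G') (B' : Rep.{0} k₂' G') (C' : Rep.{0} k₃' G')
      (φ' : A' →+ B') (ψ' : B' →+ C'),
      IsSES A B C φ ψ → IsSmooth L B → IsSES A' B' C' φ' ψ' →
    ∀ (α : A →+ A') (β : B →+ B') (γ : C →+ C') (hα : Equivar f A A' α)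
      (_ : Equivar f B B' β) (hγ : Equivar f C C' γ),
      (∀ a, β (φ a) = φ' (α a)) → (∀ b, γ (ψ b) = ψ' (β b)) →
    ∀ (δ : H1 L C →+ H2 L A) (δ' : H1 L' C' →+ H2 L' A'),
      IsDelta₁ L φ ψ δ → IsDelta₁ L' φ' ψ' δ' →
    ∀ z : H1 L C, δ' (H1add f γ hγ hf z) = H2add f α hα hf (δ z) := by
  intro G G' _ _ L L' f hf hL k₁ k₂ k₃ k₁' k₂' k₃' _ _ _ _ _ _ A B C φ ψ A' B' C' φ' ψ' h hB _
    α β γ hα hβ hγ h1 h2 δ δ' hδ hδ' z
  obtain ⟨c, hc, rfl⟩ := exists_H1mk_eq L C z
  obtain ⟨b, a, hbLC, hbψ, ha⟩ := exists_lift₁ L hL h hB c hc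
  have e1 := hδ (H1mk L C c hc) c b a rfl hbLC hbψ ha
  have e2 := hδ' (H1add f γ hγ hf (H1mk L C c hc)) (Z1add f γ hγ c) (fun g => β (b (f g)))
    (Z2add f α hα hf a)
    (by rw [coe_H1add, coe_H1mk, H1addFull_π])
    ((IsLC₁.precomp hf hbLC).comp β)
    (fun g => by rw [Z1add_apply, ← h2, hbψ])
    (fun g g' => by
      rw [coe_Z2add, ← h1, ha, map_add, map_sub, hβ, map_mul])
  rw [e2, e1, H2add_π]

/-- **[NatDelta₀]** of `Level/Plan.lean`. -/
theorem natDelta₀ : Plan.NatDelta₀ := natDelta₀_holds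

/-- **[NatDelta₁]** of `Level/Plan.lean`. -/
theorem natDelta₁ : Plan.NatDelta₁ := natDelta₁_holds

end Fermat.Agent.CFT.Level.NatDelta

end
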