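import Fermat.Agent.CFT.Level.Plan
import Fermat.Agent.CFT.Level.Discrete
import Fermat.Agent.CFT.Level.SLevels
import Fermat.Agent.CFT.Level.LES
import Fermat.Agent.CFT.Level.Finite
import Fermat.Agent.CFT.Level.Nat

/-!
# P3 / CFT, layer L1 (Level): the contracts of `Level/Plan.lean`, proved

One import for consumers: every `Plan.X` of the Level layer that is proved on main, under the
name `Provide.x`.

* `cochainLevel`, `existsDelta₀`, `existsDelta₁`, `exactH0C`, `exactH1A`, `exactH1B`,
  `exactH1C`, `exactH2A`                   (helper69, `Level/LES.lean`)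
* `inflSurj₁`, `inflSurj₂`, `inflInj₁`, `inflInj₂`   (helper25, `Level/Finite.lean`)
* `discreteH1`, `discreteH2`               (`Level/Discrete.lean`)
* `sLevelsCofinite`, `pullLevelsCofinite`  (helper25, `Level/SLevels.lean`)

* `natDelta₀`, `natDelta₁`                 (helper90, `Level/Nat.lean`)

All 17 props of `Level/Plan.lean` are proved.
-/

set_option autoImplicit false

namespace Fermat.Agent.CFT.Level.Provide

theorem cochainLevel : Plan.CochainLevel := LES.cochainLevel

theorem existsDelta₀ : Plan.ExistsDelta₀ := LES.existsDelta₀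

theorem existsDelta₁ : Plan.ExistsDelta₁ := LES.existsDelta₁

theorem exactH0C : Plan.ExactH0C := LES.exactH0C

theorem exactH1A : Plan.ExactH1A := LES.exactH1A

theorem exactH1B : Plan.ExactH1B := LES.exactH1B

theorem exactH1C : Plan.ExactH1C := LES.exactH1C

theorem exactH2A : Plan.ExactH2A := LES.exactH2A

theorem natDelta₀ : Plan.NatDelta₀ := NatDelta.natDelta₀

theorem natDelta₁ : Plan.NatDelta₁ := NatDelta.natDelta₁

theorem inflSurj₁ : Plan.InflSurj₁ :=
  fun _ _ _ hL _ _ _ hA x => Fermat.Agent.CFT.Level.inflSurj₁ hL hA x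

theorem inflSurj₂ : Plan.InflSurj₂ :=
  fun _ _ _ hL _ _ _ hA x => Fermat.Agent.CFT.Level.inflSurj₂ hL hA x

theorem inflInj₁ : Plan.InflInj₁ :=
  fun _ _ _ _ _ _ _ _ _ _ _ _ _ _ h => Fermat.Agent.CFT.Level.inflInj₁ h

theorem inflInj₂ : Plan.InflInj₂ :=
  fun _ _ _ hL _ _ _ hA _ _ _ _ _ _ _ _ h y hy => Fermat.Agent.CFT.Level.inflInj₂ hL hA h y hy

theorem discreteH1 : Plan.DiscreteH1 := discreteH1_holds

theorem discreteH2 : Plan.DiscreteH2 := discreteH2_holds

theorem sLevelsCofinite : Plan.SLevelsCofinite := isCofinite_sLevels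

theorem pullLevelsCofinite : Plan.PullLevelsCofinite := fun _ _ r => isCofinite_pullLevels r

end Fermat.Agent.CFT.Level.Provide
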