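import Mathlib

/-!
# P3 / CFT, layer L1 (Level): level-constant cochain cohomology in degrees 1 and 2

For a group `G`, a *level system* `L` (an indexed family of subgroups `L.N i`, `L.P i`, directed)
and a representation `A : Rep k G` we define, exactly by the recipes of the frozen Prelude
(`Def_GroupCohomology_ContinuousH2`, `…ContinuousUnramified`):

* `IsLC₁ L f`, `IsLC₂ L f` : level-constant 1- and 2-cochains;
* `H1 L A : Submodule k (groupCohomology.H1 A)` : classes of level-constant 1-cocycles;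
* `H2 L A` : level-constant 2-cocycles modulo coboundaries of level-constant 1-cochains.

The Prelude objects `continuousH1S`, `continuousH2S`, `continuousH2 r` are instances of these
*by definitional unfolding* (see `Level/Bridge.lean`).
-/

set_option autoImplicit false

open CategoryTheory groupCohomology

noncomputable section

namespace Fermat.Agent.CFT.Level

/-- A level system on a group: an indexed family of subgroups `N i`, of which those with `P i`
are the *levels*; nonempty and downward directed. -/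
structure LevelSys (G : Type) [Group G] where
  /-- index type -/
  ι : Type
  /-- which indices are levels -/
  P : ι → Prop
  /-- the subgroup attached to an index -/
  N : ι → Subgroup G
  nonempty : ∃ i, P i
  directed : ∀ i j, P i → P j → ∃ l, P l ∧ N l ≤ N i ⊓ N j

variable {G : Type} [Group G]

/-- `f : G → X` is constant on the cosets `g • N` of some level `N`. -/
def IsLC₁ (L : LevelSys G) {X : Type*} (f : G → X) : Prop :=
  ∃ i : L.ι, L.P i ∧ ∀ g s, s ∈ L.N i → f (g * s) = f g

/-- `f : G × G → X` is constant on the cosets of some level in both variables. -/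
def IsLC₂ (L : LevelSys G) {X : Type*} (f : G × G → X) : Prop :=
  ∃ i : L.ι, L.P i ∧ ∀ g g' s s', s ∈ L.N i → s' ∈ L.N i → f (g * s, g' * s') = f (g, g')

/-- The levels are cofinally normal subgroups of finite index. -/
def LevelSys.IsCofinite (L : LevelSys G) : Prop :=
  ∀ i, L.P i → ∃ j, L.P j ∧ L.N j ≤ L.N i ∧ (L.N j).Normal ∧ (L.N j).FiniteIndex

/-- The discrete level system (the trivial subgroup is a level): every cochain is
level-constant. -/
def discrete (G : Type) [Group G] : LevelSys G where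
  ι := Unit
  P := fun _ => True
  N := fun _ => ⊥
  nonempty := ⟨(), trivial⟩
  directed := fun _ _ _ _ => ⟨(), trivial, le_inf le_rfl le_rfl⟩

/-- Pull back a level system along a group homomorphism. -/
def LevelSys.comap {G' : Type} [Group G'] (L : LevelSys G) (f : G' →* G) : LevelSys G' where
  ι := L.ι
  P := L.P
  N := fun i => (L.N i).comap f
  nonempty := L.nonempty
  directed := fun i j hi hj => by
    obtain ⟨l, hl, hle⟩ := L.directed i j hi hj
    exact ⟨l, hl, fun x hx => ⟨(hle hx).1, (hle hx).2⟩⟩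

section basic

variable {L : LevelSys G}

lemma IsLC₁.add {X : Type*} [Add X] {f f' : G → X}
    (hf : IsLC₁ L f) (hf' : IsLC₁ L f') : IsLC₁ L (f + f') := by
  obtain ⟨i, hi, h⟩ := hf
  obtain ⟨j, hj, h'⟩ := hf'
  obtain ⟨l, hl, hle⟩ := L.directed i j hi hj
  refine ⟨l, hl, fun g s hs => ?_⟩
  simp only [Pi.add_apply]
  rw [h g s (hle hs).1, h' g s (hle hs).2]

lemma IsLC₂.add {X : Type*} [Add X] {f f' : G × G → X}
    (hf : IsLC₂ L f) (hf' : IsLC₂ L f') : IsLC₂ L (f + f') := by
  obtain ⟨i, hi, h⟩ := hf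
  obtain ⟨j, hj, h'⟩ := hf'
  obtain ⟨l, hl, hle⟩ := L.directed i j hi hj
  refine ⟨l, hl, fun g g' s s' hs hs' => ?_⟩
  simp only [Pi.add_apply]
  rw [h g g' s s' (hle hs).1 (hle hs').1, h' g g' s s' (hle hs).2 (hle hs').2]

variable (L) in
lemma isLC₁_const {X : Type*} (x : X) : IsLC₁ L (fun _ : G => x) := by
  obtain ⟨i, hi⟩ := L.nonempty
  exact ⟨i, hi, fun _ _ _ => rfl⟩

variable (L) in
lemma isLC₂_const {X : Type*} (x : X) : IsLC₂ L (fun _ : G × G => x) := by
  obtain ⟨i, hi⟩ := L.nonempty
  exact ⟨i, hi, fun _ _ _ _ _ _ => rfl⟩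

lemma IsLC₁.comp {X Y : Type*} {f : G → X} (hf : IsLC₁ L f) (φ : X → Y) : IsLC₁ L (φ ∘ f) := by
  obtain ⟨i, hi, h⟩ := hf
  exact ⟨i, hi, fun g s hs => by simp only [Function.comp_apply, h g s hs]⟩

lemma IsLC₂.comp {X Y : Type*} {f : G × G → X} (hf : IsLC₂ L f) (φ : X → Y) :
    IsLC₂ L (φ ∘ f) := by
  obtain ⟨i, hi, h⟩ := hf
  exact ⟨i, hi, fun g g' s s' hs hs' => by simp only [Function.comp_apply, h g g' s s' hs hs']⟩

end basic

section carriers

variable {k : Type} [CommRing k] (L : LevelSys G) (A : Rep k G)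

/-- Level-constant 1-cochains. -/
def cochains₁ : Submodule k (G → A) where
  carrier := {f | IsLC₁ L f}
  add_mem' hf hf' := hf.add hf'
  zero_mem' := isLC₁_const L (0 : A)
  smul_mem' c _ hf := hf.comp (c • ·)

/-- Level-constant 2-cochains. -/
def cochains₂ : Submodule k (G × G → A) where
  carrier := {f | IsLC₂ L f}
  add_mem' hf hf' := hf.add hf'
  zero_mem' := isLC₂_const L (0 : A)
  smul_mem' c _ hf := hf.comp (c • ·)

lemma mem_cochains₁_iff (f : G → A) : f ∈ cochains₁ L A ↔ IsLC₁ L f := Iff.rfl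

lemma mem_cochains₂_iff (f : G × G → A) : f ∈ cochains₂ L A ↔ IsLC₂ L f := Iff.rfl

/-- Level-constant 1-cocycles. -/
def Z1 : Submodule k (cocycles₁ A) :=
  (cochains₁ L A).comap (cocycles₁ A).subtype

lemma mem_Z1_iff (c : cocycles₁ A) : c ∈ Z1 L A ↔ IsLC₁ L c := Iff.rfl

/-- `H¹` of level-constant cochains, as a submodule of Mathlib's `H1 A`: the classes that have a
level-constant representative. -/
def H1 : Submodule k (groupCohomology.H1 A) :=
  (Z1 L A).map (H1π A).hom

lemma mem_H1_iff (x : groupCohomology.H1 A) :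
    x ∈ H1 L A ↔ ∃ c : cocycles₁ A, IsLC₁ L c ∧ (H1π A).hom c = x := by
  simp only [H1, Submodule.mem_map, Z1, Submodule.mem_comap]; rfl

/-- Level-constant 2-cocycles. -/
def Z2 : Submodule k (G × G → A) :=
  cocycles₂ A ⊓ cochains₂ L A

/-- Coboundaries of level-constant 1-cochains. -/
def B2 : Submodule k (G × G → A) :=
  (cochains₁ L A).map (d₁₂ A).hom

lemma mem_Z2_iff (f : G × G → A) : f ∈ Z2 L A ↔ f ∈ cocycles₂ A ∧ IsLC₂ L f := Iff.rfl

lemma mem_B2_iff (f : G × G → A) :
    f ∈ B2 L A ↔ ∃ x : G → A, IsLC₁ L x ∧ (d₁₂ A).hom x = f := by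
  simp only [B2, Submodule.mem_map, mem_cochains₁_iff]

/-- `H²` of level-constant cochains. -/
abbrev H2 : Type :=
  ↥(Z2 L A) ⧸ (B2 L A).comap (Z2 L A).subtype

/-- The class of a level-constant 2-cocycle. -/
abbrev H2π : ↥(Z2 L A) →ₗ[k] H2 L A :=
  Submodule.mkQ _

lemma H2π_eq_zero_iff (f : ↥(Z2 L A)) :
    H2π L A f = 0 ↔ (f : G × G → A) ∈ B2 L A := by
  simp [Submodule.Quotient.mk_eq_zero, Submodule.mem_comap]

end carriers

end Fermat.Agent.CFT.Level

end
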