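import Fermat.Agent.CFT.Level.Basic

/-!
# P3 / CFT, layer L1 (Level): functoriality of level cohomology

For a group homomorphism `f : G →* H`, level systems `LG`, `LH` with `LG.Compat LH f` (the
preimage of every level of `H` contains a level of `G`) and an `f`-equivariant linear map
`φ : A → B` (`A : Rep k H`, `B : Rep k G`) we construct

* `H2map f φ hφ hf : H2 LH A →ₗ[k] H2 LG B` (on cocycles: `c ↦ φ ∘ c ∘ (f × f)`),
* `H1map f φ hφ hf : H1 LH A →ₗ[k] H1 LG B` (the restriction of Mathlib's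
  `groupCohomology.map f _ 1`),

together with the cocycle-level maps `Z1map`, `Z2map`, identities and composition.
The recipes are verbatim those of the Prelude's `continuousH2Map`.
-/

set_option autoImplicit false

open CategoryTheory groupCohomology

noncomputable section

namespace Fermat.Agent.CFT.Level

variable {k : Type} [CommRing k] {G H K : Type} [Group G] [Group H] [Group K]

/-- `A` is smooth for the level system `L`: every element is fixed by some level. -/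
def IsSmooth (L : LevelSys G) (A : Rep k G) : Prop :=
  ∀ a : A, ∃ i, L.P i ∧ ∀ s ∈ L.N i, A.ρ s a = a

/-- `f : G →* H` is compatible with the level systems: the preimage of every level of `H`
contains a level of `G`. -/
def LevelSys.Compat (LG : LevelSys G) (LH : LevelSys H) (f : G →* H) : Prop :=
  ∀ i, LH.P i → ∃ j, LG.P j ∧ LG.N j ≤ (LH.N i).comap f

lemma LevelSys.Compat.id (L : LevelSys G) : L.Compat L (MonoidHom.id G) :=
  fun i hi => ⟨i, hi, fun _ hx => hx⟩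

lemma LevelSys.Compat.comp {LG : LevelSys G} {LH : LevelSys H} {LK : LevelSys K}
    {f : G →* H} {g : H →* K} (hf : LG.Compat LH f) (hg : LH.Compat LK g) :
    LG.Compat LK (g.comp f) := by
  intro i hi
  obtain ⟨j, hj, hle⟩ := hg i hi
  obtain ⟨l, hl, hle'⟩ := hf j hj
  exact ⟨l, hl, fun x hx => hle (hle' hx)⟩

lemma LevelSys.compat_comap (L : LevelSys H) (f : G →* H) : (L.comap f).Compat L f :=
  fun i hi => ⟨i, hi, fun _ hx => hx⟩

section precomp

variable {LG : LevelSys G} {LH : LevelSys H} {f : G →* H}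

lemma IsLC₁.precomp (hf : LG.Compat LH f) {X : Type*} {x : H → X} (hx : IsLC₁ LH x) :
    IsLC₁ LG (x ∘ f) := by
  obtain ⟨i, hi, h⟩ := hx
  obtain ⟨j, hj, hle⟩ := hf i hi
  refine ⟨j, hj, fun g s hs => ?_⟩
  simp only [Function.comp_apply, map_mul]
  exact h (f g) (f s) (hle hs)

lemma IsLC₂.precomp (hf : LG.Compat LH f) {X : Type*} {x : H × H → X} (hx : IsLC₂ LH x) :
    IsLC₂ LG (x ∘ Prod.map f f) := by
  obtain ⟨i, hi, h⟩ := hx
  obtain ⟨j, hj, hle⟩ := hf i hi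
  refine ⟨j, hj, fun g g' s s' hs hs' => ?_⟩
  simp only [Function.comp_apply, Prod.map_apply, map_mul]
  exact h (f g) (f g') (f s) (f s') (hle hs) (hle hs')

end precomp

section pullPush

variable (f : G →* H) {A : Rep k H} {B : Rep k G} (φ : A →ₗ[k] B)

/-- `x ↦ φ ∘ x ∘ f` on 1-cochains. -/
def pullPush₁ : (H → A) →ₗ[k] (G → B) where
  toFun x := φ ∘ x ∘ f
  map_add' x y := by ext; simp
  map_smul' c x := by ext; simp

/-- `x ↦ φ ∘ x ∘ (f × f)` on 2-cochains. -/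
def pullPush₂ : (H × H → A) →ₗ[k] (G × G → B) where
  toFun x := φ ∘ x ∘ Prod.map f f
  map_add' x y := by ext; simp
  map_smul' c x := by ext; simp

@[simp] lemma pullPush₁_apply (x : H → A) (g : G) : pullPush₁ f φ x g = φ (x (f g)) := rfl

@[simp] lemma pullPush₂_apply (x : H × H → A) (g : G × G) :
    pullPush₂ f φ x g = φ (x (f g.1, f g.2)) := rfl

variable (hφ : ∀ (g : G) (a : A), φ (A.ρ (f g) a) = B.ρ g (φ a))

include hφ in
lemma pullPush₁_d₀₁ (a : A) :
    pullPush₁ f φ ((d₀₁ A).hom a) = (d₀₁ B).hom (φ a) := by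
  ext g
  simp [d₀₁_hom_apply, map_sub, hφ]

include hφ in
lemma pullPush₂_d₁₂ (x : H → A) :
    pullPush₂ f φ ((d₁₂ A).hom x) = (d₁₂ B).hom (pullPush₁ f φ x) := by
  ext ⟨g, g'⟩
  simp [d₁₂_hom_apply, map_add, map_sub, hφ, map_mul]

include hφ in
lemma pullPush₁_mem_cocycles₁ {x : H → A} (hx : x ∈ cocycles₁ A) :
    pullPush₁ f φ x ∈ cocycles₁ B := by
  rw [mem_cocycles₁_iff] at hx ⊢
  intro g h
  simp only [pullPush₁_apply, map_mul, hx, map_add, hφ]

include hφ in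
lemma pullPush₂_mem_cocycles₂ {x : H × H → A} (hx : x ∈ cocycles₂ A) :
    pullPush₂ f φ x ∈ cocycles₂ B := by
  rw [mem_cocycles₂_iff] at hx ⊢
  intro g h j
  simp only [pullPush₂_apply, map_mul, ← map_add, hx, ← hφ]

variable {LG : LevelSys G} {LH : LevelSys H} (hf : LG.Compat LH f)

include hf in
lemma pullPush₁_mem_cochains₁ {x : H → A} (hx : x ∈ cochains₁ LH A) :
    pullPush₁ f φ x ∈ cochains₁ LG B :=
  ((IsLC₁.precomp hf hx).comp φ :)

include hf in
lemma pullPush₂_mem_cochains₂ {x : H × H → A} (hx : x ∈ cochains₂ LH A) :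
    pullPush₂ f φ x ∈ cochains₂ LG B :=
  ((IsLC₂.precomp hf hx).comp φ :)

include hf hφ in
lemma pullPush₂_mem_Z2 {x : H × H → A} (hx : x ∈ Z2 LH A) :
    pullPush₂ f φ x ∈ Z2 LG B :=
  ⟨pullPush₂_mem_cocycles₂ f φ hφ hx.1, pullPush₂_mem_cochains₂ f φ hf hx.2⟩

include hf hφ in
lemma pullPush₂_mem_B2 {x : H × H → A} (hx : x ∈ B2 LH A) :
    pullPush₂ f φ x ∈ B2 LG B := by
  obtain ⟨y, hy, rfl⟩ := (mem_B2_iff LH A x).1 hx
  exact (mem_B2_iff LG B _).2
    ⟨pullPush₁ f φ y, (IsLC₁.precomp hf hy).comp φ, (pullPush₂_d₁₂ f φ hφ y).symm⟩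

/-- The map on level 2-cocycles. -/
def Z2map : ↥(Z2 LH A) →ₗ[k] ↥(Z2 LG B) :=
  (pullPush₂ f φ).restrict fun _ hx => pullPush₂_mem_Z2 f φ hφ hf hx

@[simp] lemma coe_Z2map (x : ↥(Z2 LH A)) :
    (Z2map f φ hφ hf x : G × G → B) = pullPush₂ f φ x := rfl

/-- Functoriality of level `H²`: `c ↦ φ ∘ c ∘ (f × f)`. -/
def H2map : H2 LH A →ₗ[k] H2 LG B :=
  Submodule.mapQ _ _ (Z2map f φ hφ hf) fun _ hx => pullPush₂_mem_B2 f φ hφ hf hx

@[simp] lemma H2map_H2π (x : ↥(Z2 LH A)) :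
    H2map f φ hφ hf (H2π LH A x) = H2π LG B (Z2map f φ hφ hf x) :=
  rfl

/-- The map on (all) 1-cocycles. -/
def cocycles₁map : ↥(cocycles₁ A) →ₗ[k] ↥(cocycles₁ B) :=
  (pullPush₁ f φ).restrict fun _ hx => pullPush₁_mem_cocycles₁ f φ hφ hx

@[simp] lemma coe_cocycles₁map (c : ↥(cocycles₁ A)) (g : G) :
    (cocycles₁map f φ hφ c) g = φ (c (f g)) := rfl

end pullPush

section H2functoriality

variable {A : Rep k K} {B : Rep k H} {C : Rep k G}

lemma H2map_id (L : LevelSys G) (C : Rep k G) :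
    H2map (MonoidHom.id G) (LinearMap.id : C →ₗ[k] C) (fun _ _ => rfl) (LevelSys.Compat.id L) =
      LinearMap.id := by
  refine LinearMap.ext fun x => ?_
  induction x using Submodule.Quotient.induction_on with
  | H x => rfl

lemma H2map_comp {LG : LevelSys G} {LH : LevelSys H} {LK : LevelSys K}
    (f : G →* H) (g : H →* K) (φ : A →ₗ[k] B) (ψ : B →ₗ[k] C)
    (hφ : ∀ (h : H) (a : A), φ (A.ρ (g h) a) = B.ρ h (φ a))
    (hψ : ∀ (x : G) (b : B), ψ (B.ρ (f x) b) = C.ρ x (ψ b))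
    (hf : LG.Compat LH f) (hg : LH.Compat LK g) :
    H2map (g.comp f) (ψ ∘ₗ φ) (fun x a => by
        simp only [LinearMap.comp_apply, MonoidHom.comp_apply, hφ, hψ]) (hf.comp hg) =
      H2map f ψ hψ hf ∘ₗ H2map g φ hφ hg := by
  refine LinearMap.ext fun x => ?_
  induction x using Submodule.Quotient.induction_on with
  | H x => rfl

end H2functoriality

section H1

variable (L : LevelSys G) (A : Rep k G)

/-- Level 1-cocycles, as a submodule of the functions `G → A`. -/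
def Z1f : Submodule k (G → A) :=
  cocycles₁ A ⊓ cochains₁ L A

lemma mem_Z1f_iff (c : G → A) : c ∈ Z1f L A ↔ c ∈ cocycles₁ A ∧ IsLC₁ L c := Iff.rfl

/-- A level 1-cocycle (as a function) as an element of Mathlib's `cocycles₁`. -/
def Z1f.toCocycles : ↥(Z1f L A) →ₗ[k] ↥(cocycles₁ A) :=
  Submodule.inclusion inf_le_left

@[simp] lemma Z1f.coe_toCocycles (c : ↥(Z1f L A)) (g : G) :
    Z1f.toCocycles L A c g = (c : G → A) g := rfl

/-- The class map from level 1-cocycles onto level `H¹`. -/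
def Z1toH1 : ↥(Z1f L A) →ₗ[k] ↥(H1 L A) :=
  ((H1π A).hom ∘ₗ Z1f.toCocycles L A).codRestrict (H1 L A) fun c =>
    (mem_H1_iff L A _).2 ⟨Z1f.toCocycles L A c, c.2.2, rfl⟩

@[simp] lemma coe_Z1toH1 (c : ↥(Z1f L A)) :
    (Z1toH1 L A c : groupCohomology.H1 A) = (H1π A).hom (Z1f.toCocycles L A c) := rfl

lemma Z1toH1_surjective : Function.Surjective (Z1toH1 L A) := by
  rintro ⟨x, hx⟩
  obtain ⟨c, hc, rfl⟩ := (mem_H1_iff L A x).1 hx
  exact ⟨⟨c.1, c.2, hc⟩, rfl⟩

lemma Z1toH1_eq_zero_iff (c : ↥(Z1f L A)) :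
    Z1toH1 L A c = 0 ↔ (c : G → A) ∈ coboundaries₁ A := by
  rw [Subtype.ext_iff]
  exact H1π_eq_zero_iff (Z1f.toCocycles L A c)

lemma ker_Z1toH1_le {X : Type*} [AddCommGroup X] [Module k X] (ψ : ↥(Z1f L A) →ₗ[k] X)
    (hψ : ∀ c : ↥(Z1f L A), (c : G → A) ∈ coboundaries₁ A → ψ c = 0) :
    LinearMap.ker (Z1toH1 L A) ≤ LinearMap.ker ψ := fun c hc =>
  LinearMap.mem_ker.2 (hψ c ((Z1toH1_eq_zero_iff L A c).1 (LinearMap.mem_ker.1 hc)))

/-- Descend a linear map on level 1-cocycles that kills coboundaries to level `H¹`. -/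
def H1desc {X : Type*} [AddCommGroup X] [Module k X] (ψ : ↥(Z1f L A) →ₗ[k] X)
    (hψ : ∀ c : ↥(Z1f L A), (c : G → A) ∈ coboundaries₁ A → ψ c = 0) :
    ↥(H1 L A) →ₗ[k] X :=
  LinearMap.comp ((LinearMap.ker (Z1toH1 L A)).liftQ ψ (ker_Z1toH1_le L A ψ hψ))
    (LinearMap.quotKerEquivOfSurjective (Z1toH1 L A) (Z1toH1_surjective L A)).symm.toLinearMap

lemma H1desc_Z1toH1 {X : Type*} [AddCommGroup X] [Module k X] (ψ : ↥(Z1f L A) →ₗ[k] X)
    (hψ : ∀ c : ↥(Z1f L A), (c : G → A) ∈ coboundaries₁ A → ψ c = 0) (c : ↥(Z1f L A)) :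
    H1desc L A ψ hψ (Z1toH1 L A c) = ψ c := by
  have h : (LinearMap.quotKerEquivOfSurjective (Z1toH1 L A) (Z1toH1_surjective L A)).symm
      (Z1toH1 L A c) = Submodule.Quotient.mk c :=
    (LinearEquiv.symm_apply_eq _).2 rfl
  change ((LinearMap.ker (Z1toH1 L A)).liftQ ψ (ker_Z1toH1_le L A ψ hψ))
    ((LinearMap.quotKerEquivOfSurjective (Z1toH1 L A) (Z1toH1_surjective L A)).symm
      (Z1toH1 L A c)) = ψ c
  rw [h]
  exact Submodule.liftQ_apply _ _ _

end H1

section H1map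

variable (f : G →* H) {A : Rep k H} {B : Rep k G} (φ : A →ₗ[k] B)
  (hφ : ∀ (g : G) (a : A), φ (A.ρ (f g) a) = B.ρ g (φ a))

/-- The `Rep`-morphism `res f A ⟶ B` attached to an `f`-equivariant linear map. -/
def repHom : Rep.res f A ⟶ B :=
  Rep.ofHom (ρ := A.ρ.comp f) (σ := B.ρ) ⟨φ, fun g => LinearMap.ext fun a => hφ g a⟩

@[simp] lemma repHom_apply (a : A) : (repHom f φ hφ).hom a = φ a := rfl

/-- Mathlib's `groupCohomology.map f _ 1` on the class of a cocycle `c` is the class of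
`φ ∘ c ∘ f`. -/
lemma map_H1π (c : cocycles₁ A) :
    (groupCohomology.map f (repHom f φ hφ) 1).hom ((H1π A).hom c) =
      (H1π B).hom (cocycles₁map f φ hφ c) := by
  have h := H1π_comp_map_apply f (repHom f φ hφ) c
  refine h.trans ?_
  congr 1

variable {LG : LevelSys G} {LH : LevelSys H} (hf : LG.Compat LH f)

/-- The map on level 1-cocycles (as functions). -/
def Z1map : ↥(Z1f LH A) →ₗ[k] ↥(Z1f LG B) :=
  (pullPush₁ f φ).restrict fun _ hx =>
    ⟨pullPush₁_mem_cocycles₁ f φ hφ hx.1, pullPush₁_mem_cochains₁ f φ hf hx.2⟩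

@[simp] lemma coe_Z1map (c : ↥(Z1f LH A)) (g : G) :
    (Z1map f φ hφ hf c : G → B) g = φ ((c : H → A) (f g)) := rfl

include hf in
lemma map_mem_H1 {x : groupCohomology.H1 A} (hx : x ∈ H1 LH A) :
    (groupCohomology.map f (repHom f φ hφ) 1).hom x ∈ H1 LG B := by
  obtain ⟨c, hc, rfl⟩ := (mem_H1_iff LH A x).1 hx
  rw [map_H1π]
  exact (mem_H1_iff LG B _).2
    ⟨cocycles₁map f φ hφ c, pullPush₁_mem_cochains₁ f φ hf hc, rfl⟩

/-- Functoriality of level `H¹`: the restriction of Mathlib's `groupCohomology.map f _ 1`. -/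
def H1map : ↥(H1 LH A) →ₗ[k] ↥(H1 LG B) :=
  ((groupCohomology.map f (repHom f φ hφ) 1).hom).restrict fun _ hx => map_mem_H1 f φ hφ hf hx

@[simp] lemma coe_H1map (x : ↥(H1 LH A)) :
    (H1map f φ hφ hf x : groupCohomology.H1 B) =
      (groupCohomology.map f (repHom f φ hφ) 1).hom x := rfl

lemma H1map_Z1toH1 (c : ↥(Z1f LH A)) :
    H1map f φ hφ hf (Z1toH1 LH A c) = Z1toH1 LG B (Z1map f φ hφ hf c) :=
  Subtype.ext (map_H1π f φ hφ (Z1f.toCocycles LH A c))

end H1map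

end Fermat.Agent.CFT.Level

end
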