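import Fermat.Agent.CFT.Level.Bridge
import Fermat.Agent.CFT.Level.Map

/-!
# P3 / CFT, layer L1 (Level): the Prelude dictionary for maps, `sha₁`, `sha₂`

The Prelude maps `continuousH2Map`, `continuousH2SToContinuousH2`, `locRes₂S` are instances of
the abstract `H2map` of `Level/Map.lean`; `sha₂` and `sha₁` are described in Level terms.
-/

set_option autoImplicit false

open CategoryTheory groupCohomology ExtCitation

noncomputable section

namespace Fermat.Agent.CFT.Level

variable {k : Type} [CommRing k] {G H : Type} [Group G] [Group H]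

/-- A map over `G_ℚ` is compatible with the pulled-back full levels. -/
lemma compat_pullLevels {rH : H →* (AlgebraicClosure ℚ ≃ₐ[ℚ] AlgebraicClosure ℚ)}
    {rG : G →* (AlgebraicClosure ℚ ≃ₐ[ℚ] AlgebraicClosure ℚ)} (f : G →* H)
    (hf : ∀ g, rH (f g) = rG g) : (pullLevels rG).Compat (pullLevels rH) f := by
  intro F hF
  refine ⟨F, hF, fun g hg => ?_⟩
  change rH (f g) ∈ F.fixingSubgroup
  rw [hf]
  exact hg

/-- `r : G →* G_ℚ` is compatible with the `S`-levels of `G_ℚ` and the pulled-back full levels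
of `G`. -/
lemma compat_sLevels (S : Finset Nat.Primes)
    (r : G →* (AlgebraicClosure ℚ ≃ₐ[ℚ] AlgebraicClosure ℚ)) :
    (pullLevels r).Compat (sLevels S) r :=
  fun F hF => ⟨F, hF.1, fun _ hg => hg⟩

section maps

variable {rH : H →* (AlgebraicClosure ℚ ≃ₐ[ℚ] AlgebraicClosure ℚ)}
  {rG : G →* (AlgebraicClosure ℚ ≃ₐ[ℚ] AlgebraicClosure ℚ)} (f : G →* H)
  (hf : ∀ g, rH (f g) = rG g)
  {A : Rep k H} {B : Rep k G} (φ : A →ₗ[k] B)
  (hφ : ∀ (g : G) (a : A), φ (A.ρ (f g) a) = B.ρ g (φ a))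

/-- The Prelude's `continuousH2Map` is the abstract `H2map`. -/
theorem continuousH2Map_eq :
    continuousH2Map f hf φ hφ = H2map f φ hφ (compat_pullLevels f hf) := rfl

end maps

section S

variable (S : Finset Nat.Primes) (M : Rep k (AlgebraicClosure ℚ ≃ₐ[ℚ] AlgebraicClosure ℚ))

/-- Localisation on level `H²`: from `S`-levels on `G_ℚ` to the pulled-back full levels on `H`,
along `r : H →* G_ℚ` (identity on coefficients). -/
def locH2 (r : H →* (AlgebraicClosure ℚ ≃ₐ[ℚ] AlgebraicClosure ℚ)) :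
    H2 (sLevels S) M →ₗ[k] H2 (pullLevels r) (Rep.res r M) :=
  H2map (A := M) (B := Rep.res r M) r LinearMap.id (fun _ _ => rfl) (compat_sLevels S r)

/-- Localisation on level `H¹`. -/
def locH1 (r : H →* (AlgebraicClosure ℚ ≃ₐ[ℚ] AlgebraicClosure ℚ)) :
    ↥(H1 (sLevels S) M) →ₗ[k] ↥(H1 (pullLevels r) (Rep.res r M)) :=
  H1map (A := M) (B := Rep.res r M) r LinearMap.id (fun _ _ => rfl) (compat_sLevels S r)

/-- The Prelude's `locRes₂S` is the abstract localisation `locH2`. -/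
theorem locRes₂S_eq (r : H →* (AlgebraicClosure ℚ ≃ₐ[ℚ] AlgebraicClosure ℚ)) :
    locRes₂S S M r = locH2 S M r := by
  refine LinearMap.ext fun x => ?_
  induction x using Submodule.Quotient.induction_on with
  | H x => rfl

theorem mem_sha₂_iff (x : continuousH2S S M) :
    x ∈ sha₂ S M ↔ ∀ v : extArithIndex S, locH2 S M (extArithLoc S v) x = 0 := by
  simp only [sha₂, LinearMap.mem_ker, funext_iff, locTotal₂S_apply, locRes₂S_eq]
  rfl

lemma repHom_id (r : H →* (AlgebraicClosure ℚ ≃ₐ[ℚ] AlgebraicClosure ℚ)) :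
    repHom (A := M) (B := Rep.res r M) r LinearMap.id (fun _ _ => rfl) = 𝟙 (Rep.res r M) :=
  rfl

/-- The underlying class of `locH1` is the Prelude's `locRes`. -/
theorem coe_locH1 (r : H →* (AlgebraicClosure ℚ ≃ₐ[ℚ] AlgebraicClosure ℚ))
    (x : ↥(H1 (sLevels S) M)) :
    (locH1 S M r x : groupCohomology.H1 (Rep.res r M)) =
      (groupCohomology.map r (𝟙 (Rep.res r M)) 1).hom x := rfl

end S

section sha1

variable {K : Type} [Field K] (S : Finset Nat.Primes)
  (A : Rep K (AlgebraicClosure ℚ ≃ₐ[ℚ] AlgebraicClosure ℚ))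

theorem mem_sha₁_iff (x : groupCohomology.H1 A) :
    x ∈ sha₁ S A ↔ ∃ hx : x ∈ H1 (sLevels S) A,
      ∀ v : extArithIndex S, locH1 S A (extArithLoc S v) ⟨x, hx⟩ = 0 := by
  simp only [sha₁, Submodule.mem_inf, LinearMap.mem_ker, funext_iff, locTotal_apply]
  constructor
  · rintro ⟨hx, h⟩
    exact ⟨hx, fun v => Subtype.ext (h v)⟩
  · rintro ⟨hx, h⟩
    exact ⟨hx, fun v => congrArg Subtype.val (h v)⟩

end sha1

end Fermat.Agent.CFT.Level

end
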