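import Fermat.Agent.CFT.Level.LES
import Fermat.Agent.CFT.Level.Plan

/-!
# P3 / CFT, layer L1 (Level): providers of the LES part of `Level/Plan.lean`

(The canonical providers of `Plan.NatDelta₀/₁` are helper90's `Level/Nat.lean`,
`NatDelta.natDelta₀/₁`; the proofs below are an independent second implementation on top of
`Level/LES.lean`.)

* `natDelta₀ : Plan.NatDelta₀`, `natDelta₁ : Plan.NatDelta₁`: for a morphism of short exact
  sequences over a group homomorphism `f : G' →* G` (compatible level systems), ANY connecting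
  maps satisfying the specifications `IsDelta₀` / `IsDelta₁` commute with the induced maps
  `H0add`, `H1add`, `H2add`.  In particular: change of coefficients (`f = id`) and restriction
  to the local groups (`f = extArithLoc S v`).
* the providers of the LES part of `Level/Plan.lean`: `plan_cochainLevel`, `plan_existsDelta₀`,
  `plan_existsDelta₁`, `plan_exactH0C`, `plan_exactH1A`, `plan_exactH1B`, `plan_exactH1C`,
  `plan_exactH2A` (proved in `Level/LES.lean`).
-/

set_option autoImplicit false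

open CategoryTheory groupCohomology

noncomputable section

namespace Fermat.Agent.CFT.Level.LES

/-- Naturality of `δ⁰`. -/
theorem natDelta₀ : Plan.NatDelta₀ := by
  intro G G' _ _ L L' f hf k₁ k₂ k₃ k₁' k₂' k₃' _ _ _ _ _ _ A B C φ ψ A' B' C' φ' ψ' h h'
    α β γ hα hβ hγ hβφ hγψ δ δ' hδ hδ' c
  have hS := SES.of h
  obtain ⟨c, hc⟩ := c
  obtain ⟨b, rfl⟩ := hS.surj c
  obtain ⟨a, ha⟩ := hS.exists_pre ((d₀₁ B).hom b) (hS.ψ_d₀₁_lift hc)
  have h₁ : a ∈ cocycles₁ A := hS.mem_cocycles₁_of_lift ha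
  have e := hδ ⟨ψ b, hc⟩ b ⟨a, h₁⟩ rfl (fun g => by rw [← d₀₁_hom_apply]; exact ha g)
  have e' := hδ' (H0add f γ hγ ⟨ψ b, hc⟩) (β b) (Z1add f α hα ⟨a, h₁⟩) (hγψ b).symm
    (fun g => by
      have e1 : φ' (α (a (f g))) = β (B.ρ (f g) b - b) := by
        rw [← hβφ]
        have := ha (f g)
        rw [d₀₁_hom_apply] at this
        rw [← this]
      rw [map_sub, hβ] at e1
      exact e1)
  apply Subtype.ext
  rw [e', coe_H1add, e, H1addFull_π]

/-- Naturality of `δ¹`. -/
theorem natDelta₁ : Plan.NatDelta₁ := by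
  intro G G' _ _ L L' f hf hL k₁ k₂ k₃ k₁' k₂' k₃' _ _ _ _ _ _ A B C φ ψ A' B' C' φ' ψ' h hB h'
    α β γ hα hβ hγ hβφ hγψ δ δ' hδ hδ' z
  have hS := SES.of h
  obtain ⟨b, a, hb, hc, h₁, h₂, rfl, ha, hδz⟩ := exists_rep₁ hS hL hB (spec₁_of_isDelta₁ hδ) z
  rw [hδz, H1add_mk₁, H2add_mk₂]
  have e : (fun g => γ ((ψ ∘ b) (f g))) = ψ' ∘ (fun g => β (b (f g))) :=
    funext fun g => hγψ (b (f g))
  have hc' : ψ' ∘ (fun g => β (b (f g))) ∈ cocycles₁ C' :=
    e ▸ addPP_mem_cocycles₁ f γ hγ hc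
  have key := spec₁_of_isDelta₁ hδ' (fun g => β (b (f g)))
    (fun p : G' × G' => α (a (f p.1, f p.2))) ((IsLC₁.precomp hf hb).comp β :) hc'
    (fun p => by
      rw [← hβφ, ha]
      exact congrFun (addPP_d₁₂ f β hβ b) p)
    (addPP_mem_cocycles₂ f α hα h₁) ((IsLC₂.precomp hf h₂).comp α :)
  rw [mk₁_congr e]
  exact key

/-! ### Providers of the LES part of `Level/Plan.lean` -/

theorem plan_cochainLevel : Plan.CochainLevel := cochainLevel

theorem plan_existsDelta₀ : Plan.ExistsDelta₀ := existsDelta₀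

theorem plan_existsDelta₁ : Plan.ExistsDelta₁ := existsDelta₁

theorem plan_exactH0C : Plan.ExactH0C := exactH0C

theorem plan_exactH1A : Plan.ExactH1A := exactH1A

theorem plan_exactH1B : Plan.ExactH1B := exactH1B

theorem plan_exactH1C : Plan.ExactH1C := exactH1C

theorem plan_exactH2A : Plan.ExactH2A := exactH2A

end Fermat.Agent.CFT.Level.LES

end
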