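import Fermat.Agent.CFT.Level.Finite

/-!
# P3 / CFT, layer L1 (Level): the canonical finite-level models

`IsFiniteLevel L A i π B ι` (`Level/Defs.lean`) asks for SOME model `(Q, B)` of
`(G ⧸ N_i, A^{N_i})`. This file constructs them:

* `isFiniteLevel_quotient` : `Q = G ⧸ N_i`, `B = A.quotientToInvariants N_i` (Mathlib),
  `ι = quotInvIncl A N_i`;
* `isFiniteLevel_kerModel` : for ANY surjection `π : G →* Q` with `ker π = N_i`
  (e.g. `G_ℚ → Gal(K/ℚ)`), `B = kerModel A π hπ` (the `ker π`-invariants with the induced
  `Q`-action), `ι = kerModelIncl A π hπ`;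
* `kerModelMap` : functoriality in the coefficients (additive equivariant maps, mixed rings),
  with `kerModelIncl_kerModelMap`, `kerModelMap_equivar`.
-/

set_option autoImplicit false

open CategoryTheory groupCohomology

noncomputable section

namespace Fermat.Agent.CFT.Level

variable {G : Type} [Group G] {k : Type} [CommRing k]

section quotient

variable (A : Rep.{0} k G) (N : Subgroup G) [N.Normal]

/-- The inclusion of the `N`-invariants, as an additive map from the `G ⧸ N`-module
`A.quotientToInvariants N` to `A`. -/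
def quotInvIncl : (A.quotientToInvariants N) →+ A :=
  (Submodule.subtype (Representation.invariants (A.ρ.comp N.subtype))).toAddMonoidHom

@[simp] lemma quotInvIncl_apply (b : A.quotientToInvariants N) :
    quotInvIncl A N b = (b : A) := rfl

lemma quotInvIncl_injective : Function.Injective (quotInvIncl A N) :=
  Subtype.val_injective

lemma quotInvIncl_equivar :
    Equivar (QuotientGroup.mk' N) (A.quotientToInvariants N) A (quotInvIncl A N) :=
  fun _ _ => rfl

lemma exists_quotInvIncl_eq (a : A) (ha : ∀ s ∈ N, A.ρ s a = a) :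
    ∃ b : A.quotientToInvariants N, quotInvIncl A N b = a :=
  ⟨⟨a, fun s => ha s.1 s.2⟩, rfl⟩

lemma quotInvIncl_fixed (b : A.quotientToInvariants N) {s : G} (hs : s ∈ N) :
    A.ρ s (quotInvIncl A N b) = quotInvIncl A N b :=
  b.2 ⟨s, hs⟩

end quotient

/-- **The canonical finite-level model**: for a normal level `N_i`, `(G ⧸ N_i, A^{N_i})`. -/
theorem isFiniteLevel_quotient (L : LevelSys G) (A : Rep.{0} k G) (i : L.ι) (hi : L.P i)
    [(L.N i).Normal] :
    IsFiniteLevel L A i (QuotientGroup.mk' (L.N i)) (A.quotientToInvariants (L.N i))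
      (quotInvIncl A (L.N i)) where
  isLevel := hi
  surjective := QuotientGroup.mk'_surjective _
  ker_eq := QuotientGroup.ker_mk' _
  equivar := quotInvIncl_equivar A _
  injective := quotInvIncl_injective A _
  exists_of_fixed := exists_quotInvIncl_eq A _

section surjection

variable (A : Rep.{0} k G) {Q : Type} [Group Q] (π : G →* Q) (hπ : Function.Surjective π)

/-- The `Q`-module `A^{ker π}` for a surjection `π : G →* Q`. -/
def kerModel : Rep.{0} k Q :=
  Rep.of ((A.ρ.quotientToInvariants π.ker).comp
    (QuotientGroup.quotientKerEquivOfSurjective π hπ).symm.toMonoidHom)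

/-- The inclusion `A^{ker π} → A`. -/
def kerModelIncl : (kerModel A π hπ) →+ A :=
  (Submodule.subtype (Representation.invariants (A.ρ.comp π.ker.subtype))).toAddMonoidHom

lemma kerModelIncl_injective : Function.Injective (kerModelIncl A π hπ) :=
  Subtype.val_injective

lemma kerModelIncl_equivar : Equivar π (kerModel A π hπ) A (kerModelIncl A π hπ) := by
  intro g b
  have h : (QuotientGroup.quotientKerEquivOfSurjective π hπ).symm (π g) =
      (QuotientGroup.mk g : G ⧸ π.ker) :=
    (MulEquiv.symm_apply_eq _).2 rfl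
  change ((A.ρ.quotientToInvariants π.ker
    ((QuotientGroup.quotientKerEquivOfSurjective π hπ).symm (π g)) b : _) : A) = _
  rw [h]
  rfl

lemma exists_kerModelIncl_eq (a : A) (ha : ∀ s ∈ π.ker, A.ρ s a = a) :
    ∃ b : kerModel A π hπ, kerModelIncl A π hπ b = a :=
  ⟨⟨a, fun s => ha s.1 s.2⟩, rfl⟩

lemma kerModelIncl_fixed (b : kerModel A π hπ) {s : G} (hs : s ∈ π.ker) :
    A.ρ s (kerModelIncl A π hπ b) = kerModelIncl A π hπ b :=
  b.2 ⟨s, hs⟩

/-- **Finite-level model along any surjection** with kernel the level `N_i`: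
`(Q, A^{ker π})`. -/
theorem isFiniteLevel_kerModel (L : LevelSys G) (i : L.ι) (hi : L.P i)
    (hker : π.ker = L.N i) :
    IsFiniteLevel L A i π (kerModel A π hπ) (kerModelIncl A π hπ) where
  isLevel := hi
  surjective := hπ
  ker_eq := hker
  equivar := kerModelIncl_equivar A π hπ
  injective := kerModelIncl_injective A π hπ
  exists_of_fixed := fun a ha => exists_kerModelIncl_eq A π hπ a (hker ▸ ha)

/-- Functoriality of the model in the coefficients (mixed coefficient rings). -/
def kerModelMap {k' : Type} [CommRing k'] {A' : Rep.{0} k' G} (f : A →+ A')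
    (hf : Equivar (MonoidHom.id G) A A' f) : (kerModel A π hπ) →+ (kerModel A' π hπ) where
  toFun b := (⟨f (kerModelIncl A π hπ b), fun s => by
    change A'.ρ s.1 (f _) = f _
    have h := hf s.1 (kerModelIncl A π hπ b)
    rw [MonoidHom.id_apply] at h
    rw [← h, kerModelIncl_fixed A π hπ b s.2]⟩ :
      Representation.invariants (A'.ρ.comp π.ker.subtype))
  map_zero' := Subtype.ext (by change f (kerModelIncl A π hπ 0) = 0; rw [map_zero, map_zero])
  map_add' a b := Subtype.ext (by
    change f (kerModelIncl A π hπ (a + b)) = f (kerModelIncl A π hπ a) + f (kerModelIncl A π hπ b)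
    rw [map_add, map_add])

lemma kerModelIncl_kerModelMap {k' : Type} [CommRing k'] {A' : Rep.{0} k' G} (f : A →+ A')
    (hf : Equivar (MonoidHom.id G) A A' f) (b : kerModel A π hπ) :
    kerModelIncl A' π hπ (kerModelMap A π hπ f hf b) = f (kerModelIncl A π hπ b) := rfl

lemma kerModelMap_equivar {k' : Type} [CommRing k'] {A' : Rep.{0} k' G} (f : A →+ A')
    (hf : Equivar (MonoidHom.id G) A A' f) :
    Equivar (MonoidHom.id Q) (kerModel A π hπ) (kerModel A' π hπ) (kerModelMap A π hπ f hf) := by
  intro q b
  obtain ⟨g, rfl⟩ := hπ q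
  apply kerModelIncl_injective A' π hπ
  rw [MonoidHom.id_apply, kerModelIncl_kerModelMap, kerModelIncl_equivar, kerModelIncl_equivar,
    kerModelIncl_kerModelMap]
  exact hf g _

end surjection

end Fermat.Agent.CFT.Level

end
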